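import Fermat.Agent.GaloisBasics.Galois
import Mathlib.LinearAlgebra.Matrix.Trace
import Mathlib.LinearAlgebra.Dimension.Finite
import Mathlib.LinearAlgebra.Dimension.Constructions
import Mathlib.LinearAlgebra.FiniteDimensional.Lemmas
import Mathlib.FieldTheory.Normal.Closure

/-!
# Local cochains with values in two by two matrices

For a representation `rb : G_ℚ → M₂(k)` and a subgroup `D` of the Galois group, `Z1 rb D` is the
space of locally constant trace zero cocycles of `D` for the adjoint action and `cob` the coboundary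
map. A space of locally constant cochains is bounded by bounding it at every finite level
(`finrank_le_of_levels`).
-/

set_option autoImplicit false

open Fermat.Agent.GaloisBasics

namespace Fermat.Agent.TWLocal

/-- Two by two matrices. -/
abbrev M2 (k : Type) : Type := Matrix (Fin 2) (Fin 2) k

/-- `H` contains the automorphisms in `D` fixing a finite extension. -/
def FixedAtLevel {α : Type} (D : Subgroup GalQ) (F : IntermediateField ℚ Qbar) (c : ↥D → α)
    [Zero α] : Prop :=
  ∀ σ : ↥D, (∀ x ∈ F, (σ : GalQ) x = x) → c σ = 0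

/-- A cochain is locally constant if it vanishes on the elements of `D` fixing some finite
extension. -/
def HasLevel {α : Type} [Zero α] (D : Subgroup GalQ) (c : ↥D → α) : Prop :=
  ∃ F : IntermediateField ℚ Qbar, FiniteDimensional ℚ F ∧ FixedAtLevel D F c

/-- A cochain of level `F` has every larger level. -/
theorem FixedAtLevel.mono {α : Type} [Zero α] {D : Subgroup GalQ}
    {F F' : IntermediateField ℚ Qbar} (hle : F ≤ F') {c : ↥D → α} (h : FixedAtLevel D F c) :
    FixedAtLevel D F' c :=
  fun σ hσ => h σ fun x hx => hσ x (hle hx)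

/-- A finite extension lies in a finite normal extension. -/
theorem exists_normal_level (F : IntermediateField ℚ Qbar) [FiniteDimensional ℚ F] :
    ∃ F' : IntermediateField ℚ Qbar, F ≤ F' ∧ FiniteDimensional ℚ F' ∧ Normal ℚ F' :=
  ⟨IntermediateField.normalClosure ℚ F Qbar, IntermediateField.le_normalClosure F,
    normalClosure.is_finiteDimensional ℚ F Qbar, normalClosure.normal ℚ F Qbar⟩

/-- Finitely many locally constant cochains have a common normal level. -/
theorem exists_common_level {α ι : Type} [Zero α] {D : Subgroup GalQ} (s : Finset ι)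
    (c : ι → ↥D → α) (h : ∀ i ∈ s, HasLevel D (c i)) (F₀ : IntermediateField ℚ Qbar)
    [FiniteDimensional ℚ F₀] :
    ∃ F : IntermediateField ℚ Qbar, F₀ ≤ F ∧ FiniteDimensional ℚ F ∧ Normal ℚ F ∧
      ∀ i ∈ s, FixedAtLevel D F (c i) := by
  classical
  induction s using Finset.induction_on with
  | empty =>
    obtain ⟨F, hle, hfd, hn⟩ := exists_normal_level F₀
    exact ⟨F, hle, hfd, hn, fun i hi => absurd hi (Finset.notMem_empty i)⟩
  | insert a s _ ih =>
    obtain ⟨F, hle, hfd, -, hF⟩ := ih fun i hi => h i (Finset.mem_insert_of_mem hi)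
    obtain ⟨Fa, hfa, hFa⟩ := h a (Finset.mem_insert_self a s)
    have : FiniteDimensional ℚ (F ⊔ Fa : IntermediateField ℚ Qbar) :=
      IntermediateField.finiteDimensional_sup F Fa
    obtain ⟨F', hle', hfd', hn'⟩ := exists_normal_level (F ⊔ Fa)
    refine ⟨F', (hle.trans le_sup_left).trans hle', hfd', hn', fun i hi => ?_⟩
    rcases Finset.mem_insert.1 hi with rfl | hi
    · exact hFa.mono (le_sup_right.trans hle')
    · exact (hF i hi).mono (le_sup_left.trans hle')

variable {k : Type} [Field k]

/-- A space of locally constant cochains has dimension at most `n` if, for every large enough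
normal level, every subspace of cochains of that level injects linearly into a space of dimension
`n`. -/
theorem finrank_le_of_levels {D : Subgroup GalQ} {α : Type} [AddCommGroup α] [Module k α]
    (L : Submodule k (↥D → α)) (n : ℕ) (F₀ : IntermediateField ℚ Qbar) [FiniteDimensional ℚ F₀]
    (hL : ∀ c ∈ L, HasLevel D c)
    (h : ∀ F : IntermediateField ℚ Qbar, F₀ ≤ F → FiniteDimensional ℚ F → Normal ℚ F →
      ∃ (W : Type) (_ : AddCommGroup W) (_ : Module k W) (_ : FiniteDimensional k W)
        (f : (↥D → α) →ₗ[k] W), Module.finrank k W ≤ n ∧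
        ∀ c ∈ L, FixedAtLevel D F c → f c = 0 → c = 0) :
    FiniteDimensional k L ∧ Module.finrank k L ≤ n := by
  have hr : Module.rank k L ≤ n := rank_le fun s hs => by
    obtain ⟨F, hle, hfd, hn, hF⟩ := exists_common_level s (fun c => (c : ↥D → α))
      (fun c _ => hL c c.2) F₀
    obtain ⟨W, _, _, _, f, hW, hf⟩ := h F hle hfd hn
    have hli : LinearIndependent k fun i : s => f ((i : L) : ↥D → α) := by
      refine Fintype.linearIndependent_iff.2 fun g hg => Fintype.linearIndependent_iff.1 hs g ?_
      have h0 : f ((∑ i : s, g i • (i : L) : L) : ↥D → α) = 0 := by simpa using hg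
      refine Subtype.ext (hf _ (SetLike.coe_mem _) (fun σ hσ => ?_) h0)
      rw [Submodule.coe_sum, Finset.sum_apply]
      exact Finset.sum_eq_zero fun i _ => by
        rw [Submodule.coe_smul, Pi.smul_apply, hF i i.2 σ hσ, smul_zero]
    simpa using (hli.fintype_card_le_finrank).trans hW
  have hfin : FiniteDimensional k L :=
    Module.finite_def.2 <| (Submodule.fg_top _).2 <| (Submodule.fg_iff_finiteDimensional _).2 <|
      Module.rank_lt_aleph0_iff.1 (hr.trans_lt (Cardinal.natCast_lt_aleph0))
  exact ⟨hfin, Module.finrank_le_of_rank_le hr⟩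

/-! ### The adjoint action -/

/-- The adjoint action of a matrix representation. -/
noncomputable def adj (rb : GalQ →* M2 k) (σ : GalQ) : M2 k →ₗ[k] M2 k where
  toFun X := rb σ * X * rb σ⁻¹
  map_add' X Y := by rw [mul_add, add_mul]
  map_smul' a X := by rw [mul_smul_comm, smul_mul_assoc, RingHom.id_apply]

/-- The adjoint action is conjugation by `rb σ`. -/
theorem adj_apply (rb : GalQ →* M2 k) (σ : GalQ) (X : M2 k) :
    adj rb σ X = rb σ * X * rb σ⁻¹ := rfl

/-- `rb σ⁻¹` is a right inverse of `rb σ`. -/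
theorem rb_mul_inv (rb : GalQ →* M2 k) (σ : GalQ) : rb σ * rb σ⁻¹ = 1 := by
  rw [← map_mul, mul_inv_cancel, map_one]

/-- `rb σ⁻¹` is a left inverse of `rb σ`. -/
theorem rb_inv_mul (rb : GalQ →* M2 k) (σ : GalQ) : rb σ⁻¹ * rb σ = 1 := by
  rw [← map_mul, inv_mul_cancel, map_one]

/-- The adjoint action of a product is the composite of the actions. -/
theorem adj_mul (rb : GalQ →* M2 k) (σ τ : GalQ) (X : M2 k) :
    adj rb (σ * τ) X = adj rb σ (adj rb τ X) := by
  simp only [adj_apply, mul_inv_rev, map_mul, mul_assoc]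

/-- The identity acts trivially. -/
theorem adj_one (rb : GalQ →* M2 k) (X : M2 k) : adj rb 1 X = X := by
  rw [adj_apply, inv_one, map_one, one_mul, mul_one]

/-- An element in the kernel of `rb` acts trivially. -/
theorem adj_of_eq_one {rb : GalQ →* M2 k} {σ : GalQ} (h : rb σ = 1) (X : M2 k) :
    adj rb σ X = X := by
  have h' := rb_mul_inv rb σ
  rw [h, one_mul] at h'
  rw [adj_apply, h, h', one_mul, mul_one]

/-- The adjoint action preserves the trace. -/
theorem trace_adj (rb : GalQ →* M2 k) (σ : GalQ) (X : M2 k) :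
    (adj rb σ X).trace = X.trace := by
  rw [adj_apply, mul_assoc, Matrix.trace_mul_comm, mul_assoc, rb_inv_mul, mul_one]

/-! ### Cocycles -/

/-- Trace zero, locally constant cocycles on a subgroup. -/
def Z1 (rb : GalQ →* M2 k) (D : Subgroup GalQ) : Submodule k (↥D → M2 k) where
  carrier := {c | (∀ σ τ : ↥D, c (σ * τ) = c σ + adj rb σ (c τ)) ∧ (∀ σ, (c σ).trace = 0) ∧
    HasLevel D c}
  zero_mem' := ⟨fun σ τ => by simp, fun σ => by simp,
    ⊥, inferInstance, fun σ _ => rfl⟩
  add_mem' {a b} ha hb := by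
    refine ⟨fun σ τ => ?_, fun σ => ?_, ?_⟩
    · simp only [Pi.add_apply, ha.1 σ τ, hb.1 σ τ, map_add]
      abel
    · rw [Pi.add_apply, Matrix.trace_add, ha.2.1, hb.2.1, add_zero]
    · obtain ⟨F, hF, ha'⟩ := ha.2.2
      obtain ⟨F', hF', hb'⟩ := hb.2.2
      exact ⟨F ⊔ F', IntermediateField.finiteDimensional_sup F F', fun σ hσ => by
        rw [Pi.add_apply, ha'.mono le_sup_left σ hσ, hb'.mono le_sup_right σ hσ, add_zero]⟩
  smul_mem' a c hc := by
    refine ⟨fun σ τ => ?_, fun σ => ?_, ?_⟩
    · simp only [Pi.smul_apply, hc.1 σ τ, smul_add, map_smul]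
    · rw [Pi.smul_apply, Matrix.trace_smul, hc.2.1, smul_zero]
    · obtain ⟨F, hF, hc'⟩ := hc.2.2
      exact ⟨F, hF, fun σ hσ => by rw [Pi.smul_apply, hc' σ hσ, smul_zero]⟩

variable {rb : GalQ →* M2 k} {D : Subgroup GalQ} {c : ↥D → M2 k}

/-- A cocycle vanishes at the identity. -/
theorem cocycle_one (hc : c ∈ Z1 rb D) : c 1 = 0 := by
  have h := hc.1 1 1
  rw [one_mul, OneMemClass.coe_one, adj_one] at h
  exact left_eq_add.1 h

/-- A cocycle vanishing at an element vanishes at its powers. -/
theorem cocycle_pow_eq_zero (hc : c ∈ Z1 rb D) {σ : ↥D} (h : c σ = 0) (n : ℕ) :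
    c (σ ^ n) = 0 := by
  induction n with
  | zero => rw [pow_zero, cocycle_one hc]
  | succ n ih => rw [pow_succ, hc.1, ih, h, map_zero, add_zero]

/-- On an element acting trivially, a cocycle is additive in powers. -/
theorem cocycle_pow_of_eq_one (hc : c ∈ Z1 rb D) {σ : ↥D} (h : rb σ = 1) (n : ℕ) :
    c (σ ^ n) = n • c σ := by
  induction n with
  | zero => rw [pow_zero, cocycle_one hc, zero_smul]
  | succ n ih => rw [pow_succ', hc.1, ih, adj_of_eq_one h, succ_nsmul, add_comm]

/-- The value of a cocycle at a conjugate. -/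
theorem cocycle_conj (hc : c ∈ Z1 rb D) (φ σ : ↥D) :
    c (φ * σ * φ⁻¹) = c φ + adj rb φ (c σ) - adj rb (φ * σ * φ⁻¹ : ↥D) (c φ) := by
  have h := hc.1 (φ * σ * φ⁻¹) φ
  rw [inv_mul_cancel_right, hc.1] at h
  rw [h, add_sub_cancel_right]

/-- The coboundary of a matrix, restricted to `D`. -/
noncomputable def cob (rb : GalQ →* M2 k) (D : Subgroup GalQ) : M2 k →ₗ[k] ↥D → M2 k where
  toFun X σ := X - adj rb σ X
  map_add' X Y := by
    funext σ
    simp only [Pi.add_apply, map_add]
    abel
  map_smul' a X := by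
    funext σ
    simp only [Pi.smul_apply, map_smul, smul_sub, RingHom.id_apply]

/-- The coboundary of `X` sends `σ` to `X - σ • X`. -/
theorem cob_apply (X : M2 k) (σ : ↥D) : cob rb D X σ = X - adj rb σ X := rfl

/-- Coboundaries are locally constant cocycles. -/
theorem cob_mem_Z1 (hrb : ∃ F : IntermediateField ℚ Qbar, FiniteDimensional ℚ F ∧
      ∀ σ : GalQ, (∀ x ∈ F, σ x = x) → rb σ = 1) (X : M2 k) : cob rb D X ∈ Z1 rb D := by
  obtain ⟨F, hF, hFrb⟩ := hrb
  refine ⟨fun σ τ => ?_, fun σ => ?_, F, hF, fun σ hσ => ?_⟩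
  · simp only [cob_apply, Subgroup.coe_mul, adj_mul, map_sub]
    abel
  · rw [cob_apply, Matrix.trace_sub, trace_adj, sub_self]
  · rw [cob_apply, adj_of_eq_one (hFrb _ hσ), sub_self]

end Fermat.Agent.TWLocal
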