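import Mathlib.FieldTheory.Finite.Basic
import Mathlib.Algebra.Algebra.ZMod
import Fermat.Agent.GaloisBasics.Finite
import Fermat.Agent.LocalInertia.CyclicTame
import Fermat.Agent.LocalInertia.Corollaries
import Fermat.Agent.TWLocal.Basic

/-!
# Generators of decomposition groups at finite levels

At a finite level the decomposition group is generated by a Frobenius and inertia, and inertia is
a cyclic tame quotient up to wild inertia. Hence a cocycle at a prime `q ≠ p` is determined by its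
values at a Frobenius and at one element of inertia.
-/

set_option autoImplicit false

open scoped Pointwise NumberField
open Fermat.Agent.GaloisBasics Fermat.Agent.LocalInertia

namespace Fermat.Agent.TWLocal

variable {A : ValuationSubring Qbar} {q : ℕ}

/-- Inertia is contained in the decomposition group. -/
theorem inertia_le : A.inertiaSubgroupIn ℚ ≤ A.decompositionSubgroup ℚ :=
  LocalInertia.inertiaSubgroupIn_le_decompositionSubgroup

theorem frobenius_pow_residue {φ : GalQ} (hφ : A.IsFrobeniusAt φ q) (i : ℕ) :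
    ∀ y : IsLocalRing.ResidueField A,
      (⟨φ, hφ.mem_decompositionSubgroup⟩ : A.decompositionSubgroup ℚ) ^ i • y = y ^ q ^ i := by
  induction i with
  | zero => intro y; simp
  | succ i ih =>
    intro y
    rw [pow_succ', mul_smul, ih, hφ.smul_residue_eq, ← pow_mul, pow_succ]

/-- At a finite level an element of the decomposition group is a power of Frobenius times an
element of inertia. -/
theorem exists_pow_frobenius_mul (hA : A.LiesOverPrime q) (hq : q.Prime)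
    (F : IntermediateField ℚ Qbar) [FiniteDimensional ℚ F] {φ σ : GalQ}
    (hφ : A.IsFrobeniusAt φ q) (hσ : σ ∈ A.decompositionSubgroup ℚ) [Normal ℚ F] :
    ∃ i : ℕ, ∃ τ ∈ F.fixingSubgroup, (φ ^ i)⁻¹ * σ * τ ∈ A.inertiaSubgroupIn ℚ := by
  have : IsGalois ℚ F := ⟨⟩
  have : Fact q.Prime := ⟨hq⟩
  have := residueField_charP hA hq
  let P := intIdeal F A
  have := intIdeal_isMaximal F hA hq
  let := Ideal.Quotient.field P
  have hP0 : P ≠ ⊥ := fun h => by
    have h1 := natCast_mem_intIdeal F (A := A) hA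
    rw [show intIdeal F A = ⊥ from h, Ideal.mem_bot, Nat.cast_eq_zero] at h1
    exact hq.ne_zero h1
  have : Finite (𝓞 F ⧸ P) := Ideal.finiteQuotientOfFreeOfNeBot P hP0
  let := Fintype.ofFinite (𝓞 F ⧸ P)
  have : CharP (𝓞 F ⧸ P) q := ⟨fun n => by
    rw [← map_natCast (Ideal.Quotient.mk P), Ideal.Quotient.eq_zero_iff_mem,
      ← natCast_mem_zbarIdeal_iff hA hq, ← map_natCast (intIncl F)]
    rfl⟩
  let : Algebra (ZMod q) (𝓞 F ⧸ P) := ZMod.algebra _ q
  -- the action of `σ` on the residue field of `F`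
  have hstab : ∀ a ∈ P, restrictK F σ • a ∈ P := fun a ha => by
    have h1 : restrictK F σ • P = P := by
      rw [← intIdeal_smul, mem_decompositionSubgroup_iff_eq.1 hσ]
    have h2 := Ideal.smul_mem_pointwise_smul (restrictK F σ) a P ha
    rwa [h1] at h2
  let s : (𝓞 F ⧸ P) →+* (𝓞 F ⧸ P) :=
    Ideal.quotientMap P (MulSemiringAction.toRingHom _ (𝓞 F) (restrictK F σ))
      (fun a ha => hstab a ha)
  let s' : (𝓞 F ⧸ P) →ₐ[ZMod q] (𝓞 F ⧸ P) :=
    { s with commutes' := fun z =>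
        RingHom.congr_fun (RingHom.ext_zmod (s.comp (algebraMap (ZMod q) _)) (algebraMap _ _)) z }
  obtain ⟨⟨i, hi⟩, hs⟩ :=
    (FiniteField.bijective_frobeniusAlgHom_pow (ZMod q) (𝓞 F ⧸ P)).2 s'
  have key : ∀ a : 𝓞 F, restrictK F σ • a - a ^ q ^ i ∈ P := fun a => by
    rw [← Ideal.Quotient.eq_zero_iff_mem, map_sub, map_pow, sub_eq_zero]
    have h1 := DFunLike.congr_fun hs (Ideal.Quotient.mk P a)
    simp only [AlgHom.coe_pow, FiniteField.coe_frobeniusAlgHom, pow_iterate, ZMod.card] at h1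
    exact h1.symm
  let δ : A.decompositionSubgroup ℚ :=
    (⟨φ, hφ.mem_decompositionSubgroup⟩ : A.decompositionSubgroup ℚ) ^ i
  obtain ⟨τ, hτ, hmem⟩ := exists_mem_inertia_lift hA hq F.fixingSubgroup
    (InfiniteGalois.fixingSubgroup_isClosed F) ((φ ^ i)⁻¹ * σ) fun b hb => by
      obtain ⟨a, rfl⟩ := (fixed_iff_mem_range_intIncl F b).1 hb
      have hmem : (φ ^ i)⁻¹ * σ ∈ A.decompositionSubgroup ℚ :=
        mul_mem (inv_mem (pow_mem hφ.mem_decompositionSubgroup i)) hσ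
      have h2 : zbarResidue A (σ • intIncl F a) = zbarResidue A (intIncl F a) ^ q ^ i := by
        rw [← map_pow, zbarResidue_eq_iff, ← intIncl_smul, ← map_pow, ← map_sub]
        exact key a
      rw [← zbarResidue_eq_iff, ← smul_zbarResidue ⟨_, hmem⟩,
        show (⟨(φ ^ i)⁻¹ * σ, hmem⟩ : A.decompositionSubgroup ℚ) = δ⁻¹ * ⟨σ, hσ⟩ from
          Subtype.ext rfl,
        mul_smul, inv_smul_eq_iff, frobenius_pow_residue hφ, smul_zbarResidue, h2]
  exact ⟨i, τ, hτ, hmem⟩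

variable {k : Type} [Field k] {rb : GalQ →* M2 k}
  {c : ↥(A.decompositionSubgroup ℚ) → M2 k} {φ : GalQ} {F : IntermediateField ℚ Qbar}

/-- A cocycle of level `F` vanishing at Frobenius and on inertia is zero. -/
theorem eq_zero_of_frobenius_inertia (hA : A.LiesOverPrime q) (hq : q.Prime)
    [FiniteDimensional ℚ F] [Normal ℚ F] (hc : c ∈ Z1 rb (A.decompositionSubgroup ℚ))
    (hcF : FixedAtLevel (A.decompositionSubgroup ℚ) F c) (hφ : A.IsFrobeniusAt φ q)
    (h0 : c ⟨φ, hφ.mem_decompositionSubgroup⟩ = 0)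
    (hI : ∀ σ (hσ : σ ∈ A.inertiaSubgroupIn ℚ),
      c ⟨σ, inertia_le hσ⟩ = 0) : c = 0 := by
  funext ⟨σ, hσ⟩
  obtain ⟨i, τ, hτ, hmem⟩ := exists_pow_frobenius_mul hA hq F hφ hσ
  have hτD : τ ∈ A.decompositionSubgroup ℚ := by
    have h1 := mul_mem (mul_mem (inv_mem hσ) (pow_mem hφ.mem_decompositionSubgroup i))
      (inertia_le hmem)
    simpa [mul_assoc] using h1
  have h1 : c (⟨σ, hσ⟩ * ⟨τ, hτD⟩) = c ⟨σ, hσ⟩ := by
    rw [hc.1, hcF ⟨τ, hτD⟩ fun x hx => (IntermediateField.mem_fixingSubgroup_iff F τ).1 hτ x hx,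
      map_zero, add_zero]
  have h2 : (⟨σ, hσ⟩ * ⟨τ, hτD⟩ : A.decompositionSubgroup ℚ) =
      (⟨φ, hφ.mem_decompositionSubgroup⟩ : A.decompositionSubgroup ℚ) ^ i *
        ⟨_, inertia_le hmem⟩ :=
    Subtype.ext (by simp [mul_assoc])
  rw [Pi.zero_apply, ← h1, h2, hc.1, hI _ hmem, map_zero, add_zero, cocycle_pow_eq_zero hc h0]

/-- An element killed by two coprime exponents is trivial. -/
theorem eq_one_of_pow_eq_one_of_coprime {M : Type*} [Monoid M] {x : M} {a b : ℕ}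
    (hab : Nat.Coprime a b) (ha : x ^ a = 1) (hb : x ^ b = 1) : x = 1 :=
  orderOf_eq_one_iff.1
    (Nat.eq_one_of_dvd_coprimes hab (orderOf_dvd_of_pow_eq_one ha) (orderOf_dvd_of_pow_eq_one hb))

variable {p : ℕ}

/-- An element of inertia with a `q`-power acting trivially at the level acts trivially and has
zero cocycle value, if inertia acts through elements killed by `p`. -/
theorem eq_one_and_cocycle_eq_zero (hq : q.Prime) (hp : p.Prime) (hqp : q ≠ p)
    (hqk : (q : k) ≠ 0)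
    (hrbF : ∀ σ : GalQ, (∀ x ∈ F, σ x = x) → rb σ = 1)
    (hord : ∀ σ ∈ A.inertiaSubgroupIn ℚ, rb σ ^ p = 1)
    (hc : c ∈ Z1 rb (A.decompositionSubgroup ℚ))
    (hcF : FixedAtLevel (A.decompositionSubgroup ℚ) F c) {w : GalQ}
    (hw : w ∈ A.inertiaSubgroupIn ℚ) {j : ℕ} (hj : ∀ x ∈ F, (w ^ q ^ j) x = x) :
    rb w = 1 ∧ c ⟨w, inertia_le hw⟩ = 0 := by
  have h1 : rb w = 1 := eq_one_of_pow_eq_one_of_coprime
    (((Nat.coprime_primes hq hp).2 hqp).pow_left j) (by rw [← map_pow]; exact hrbF _ hj)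
    (hord w hw)
  refine ⟨h1, ?_⟩
  set W : A.decompositionSubgroup ℚ := ⟨w, inertia_le hw⟩
  have h2 : c (W ^ q ^ j) = 0 := hcF _ fun x hx => by
    rw [SubmonoidClass.coe_pow]; exact hj x hx
  rw [cocycle_pow_of_eq_one hc h1, ← Nat.cast_smul_eq_nsmul k] at h2
  exact (smul_eq_zero.1 h2).resolve_left (by push_cast; exact pow_ne_zero _ hqk)

/-- The basic determination: Frobenius and one element of inertia determine a cocycle, when
inertia acts through elements killed by `p ≠ q`. -/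
theorem exists_inertia_determining (hA : A.LiesOverPrime q) (hq : q.Prime) (hp : p.Prime)
    (hqp : q ≠ p) (hqk : (q : k) ≠ 0) (F : IntermediateField ℚ Qbar) [FiniteDimensional ℚ F]
    [Normal ℚ F] (hrbF : ∀ σ : GalQ, (∀ x ∈ F, σ x = x) → rb σ = 1)
    (hord : ∀ σ ∈ A.inertiaSubgroupIn ℚ, rb σ ^ p = 1) (hφ : A.IsFrobeniusAt φ q) :
    ∃ (t : GalQ) (ht : t ∈ A.inertiaSubgroupIn ℚ),
      (∀ σ ∈ A.inertiaSubgroupIn ℚ, ∃ j : ℕ, rb σ = rb t ^ j) ∧
      rb (φ * t * φ⁻¹) = rb t ^ q ∧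
      ∀ c ∈ Z1 rb (A.decompositionSubgroup ℚ), FixedAtLevel (A.decompositionSubgroup ℚ) F c →
        c (⟨φ, hφ.mem_decompositionSubgroup⟩ *
            ⟨t, inertia_le ht⟩ *
            ⟨φ, hφ.mem_decompositionSubgroup⟩⁻¹) =
          c (⟨t, inertia_le ht⟩ ^ q) ∧
        (c ⟨φ, hφ.mem_decompositionSubgroup⟩ = 0 →
          c ⟨t, inertia_le ht⟩ = 0 → c = 0) := by
  obtain ⟨t, ht, hgen⟩ := exists_inertia_generator hq hA F
  set Φ : A.decompositionSubgroup ℚ := ⟨φ, hφ.mem_decompositionSubgroup⟩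
  set T : A.decompositionSubgroup ℚ := ⟨t, inertia_le ht⟩
  have hw := wildInertia_le_inertiaSubgroupIn (conj_mul_pow_inv_mem_wildInertia hφ ht)
  obtain ⟨j₀, hj₀⟩ := exists_qpow_fix hq hA F (conj_mul_pow_inv_mem_wildInertia hφ ht)
  have hσ : ∀ σ ∈ A.inertiaSubgroupIn ℚ, ∃ j j' : ℕ, ∃ w ∈ A.inertiaSubgroupIn ℚ,
      (∀ x ∈ F, (w ^ q ^ j') x = x) ∧ σ = t ^ j * w := fun σ hσ => by
    obtain ⟨j, j', hjk⟩ := hgen σ hσ
    exact ⟨j, j', _, mul_mem (inv_mem (pow_mem ht j)) hσ, hjk, (mul_inv_cancel_left _ _).symm⟩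
  refine ⟨t, ht, fun σ hσI => ?_, ?_, fun c hc hcF => ⟨?_, fun h1 h2 => ?_⟩⟩
  · obtain ⟨j, j', w, hwI, hw', rfl⟩ := hσ σ hσI
    have hzero : (0 : ↥(A.decompositionSubgroup ℚ) → M2 k) ∈ Z1 rb _ := zero_mem _
    refine ⟨j, ?_⟩
    rw [map_mul, map_pow, (eq_one_and_cocycle_eq_zero hq hp hqp hqk hrbF hord hzero
      (fun σ _ => rfl) hwI hw').1, mul_one]
  · have hzero : (0 : ↥(A.decompositionSubgroup ℚ) → M2 k) ∈ Z1 rb _ := zero_mem _
    have h1 := (eq_one_and_cocycle_eq_zero hq hp hqp hqk hrbF hord hzero (fun σ _ => rfl) hw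
      hj₀).1
    rw [← inv_mul_cancel_right (φ * t * φ⁻¹) (t ^ q), map_mul, h1, one_mul, map_pow]
  · obtain ⟨h1, h2⟩ := eq_one_and_cocycle_eq_zero hq hp hqp hqk hrbF hord hc hcF hw hj₀
    have e : Φ * T * Φ⁻¹ = ⟨_, inertia_le hw⟩ * T ^ q :=
      Subtype.ext (by simp [Φ, T])
    rw [e, hc.1, h2, adj_of_eq_one h1, zero_add]
  · refine eq_zero_of_frobenius_inertia hA hq hc hcF hφ h1 fun σ hσI => ?_
    obtain ⟨j, j', w, hwI, hw', rfl⟩ := hσ σ hσI
    have e : (⟨t ^ j * w, inertia_le hσI⟩ :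
        A.decompositionSubgroup ℚ) = T ^ j * ⟨w, inertia_le hwI⟩ :=
      Subtype.ext (by simp [T])
    rw [e, hc.1, (eq_one_and_cocycle_eq_zero hq hp hqp hqk hrbF hord hc hcF hwI hw').2,
      map_zero, add_zero, cocycle_pow_eq_zero hc h2]

end Fermat.Agent.TWLocal
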