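import Fermat.Agent.TWLocal.Membership
import Fermat.Agent.TWAssembly.Assembly

/-!
# The local conditions at the primes of the minimal ramification set

`strictConds` is the strict ordinary condition at `p` and, at the other primes, the unipotent
classes or the coboundaries. The tangent cocycles of minimal deformations satisfy it
(`strictConds_mem`) and its dimension is bounded at each prime (`finrank_strictConds_le`).
-/

set_option autoImplicit false

open IsLocalRing Module
open Fermat.Agent.GaloisBasics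

namespace Fermat.Agent.TWLocal

section General

variable {k : Type} [Field k] {rb : GalQ →* M2 k} {A : ValuationSubring Qbar} {p q : ℕ}

open Classical in
/-- The condition at a prime `q ≠ p` of the minimal set: unipotent classes when inertia acts
unipotently and non-trivially, coboundaries otherwise. -/
noncomputable def condUnip (rb : GalQ →* M2 k) (A : ValuationSubring Qbar) :
    Submodule k (↥(A.decompositionSubgroup ℚ) → M2 k) :=
  if (∀ σ ∈ A.inertiaSubgroupIn ℚ, (rb σ).det = 1 ∧ (rb σ).trace = 2) ∧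
      ∃ σ ∈ A.inertiaSubgroupIn ℚ, rb σ ≠ 1 then Lunip rb A
  else LinearMap.range (cob rb (A.decompositionSubgroup ℚ))

theorem cob_mem_Lunip (hrb : ∃ F : IntermediateField ℚ Qbar, FiniteDimensional ℚ F ∧
      ∀ σ : GalQ, (∀ x ∈ F, σ x = x) → rb σ = 1) (X : M2 k) :
    cob rb (A.decompositionSubgroup ℚ) X ∈ Lunip rb A :=
  ⟨cob_mem_Z1 hrb X, fun σ _ => by
    rw [cob_apply, sub_mul, Matrix.trace_sub, adj_mul_self, Matrix.trace_mul_comm, sub_self]⟩

/-- Coboundaries satisfy the condition at the primes other than `p`. -/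
theorem cob_mem_condUnip (hrb : ∃ F : IntermediateField ℚ Qbar, FiniteDimensional ℚ F ∧
      ∀ σ : GalQ, (∀ x ∈ F, σ x = x) → rb σ = 1) (X : M2 k) :
    cob rb (A.decompositionSubgroup ℚ) X ∈ condUnip rb A := by
  unfold condUnip
  split_ifs
  · exact cob_mem_Lunip hrb X
  · exact LinearMap.mem_range_self _ X

/-- The condition at a prime other than `p` has dimension at most three. -/
theorem finrank_condUnip_le (hA : A.LiesOverPrime q) (hq : q.Prime) (hp : p.Prime) (hqp : q ≠ p)
    (hpk : (p : k) = 0) (h2 : (2 : k) ≠ 0)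
    (hrb : ∃ F : IntermediateField ℚ Qbar, FiniteDimensional ℚ F ∧
      ∀ σ : GalQ, (∀ x ∈ F, σ x = x) → rb σ = 1) :
    FiniteDimensional k (condUnip rb A) ∧ Module.finrank k (condUnip rb A) ≤ 3 := by
  by_cases h : (∀ σ ∈ A.inertiaSubgroupIn ℚ, (rb σ).det = 1 ∧ (rb σ).trace = 2) ∧
      ∃ σ ∈ A.inertiaSubgroupIn ℚ, rb σ ≠ 1
  · rw [show condUnip rb A = Lunip rb A from if_pos h]
    exact finrank_Lunip_le hA hq hp hqp hpk h2 hrb h.1 h.2
  · rw [show condUnip rb A = LinearMap.range (cob rb _) from if_neg h]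
    exact finrank_range_cob_le

/-- The local condition at `(q, A)`: `Lp` at `p`, unipotent elsewhere. -/
noncomputable def localConds (p : ℕ) (rb : GalQ →* M2 k)
    (Lp : (A : ValuationSubring Qbar) → Submodule k (↥(A.decompositionSubgroup ℚ) → M2 k))
    (q : ℕ) (A : ValuationSubring Qbar) :
    Submodule k (↥(A.decompositionSubgroup ℚ) → M2 k) :=
  if q = p then Lp A else condUnip rb A

/-- The strict ordinary family of local conditions. -/
noncomputable def strictConds (p : ℕ) (rb : GalQ →* M2 k) (q : ℕ) (A : ValuationSubring Qbar) :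
    Submodule k (↥(A.decompositionSubgroup ℚ) → M2 k) :=
  localConds p rb (Lord p rb) q A

/-- At `p` the family of conditions is `Lp`. -/
theorem localConds_self (Lp : (A : ValuationSubring Qbar) →
    Submodule k (↥(A.decompositionSubgroup ℚ) → M2 k)) :
    localConds p rb Lp p A = Lp A := if_pos rfl

/-- Away from `p` the family of conditions is `condUnip`. -/
theorem localConds_ne (hqp : q ≠ p) (Lp : (A : ValuationSubring Qbar) →
    Submodule k (↥(A.decompositionSubgroup ℚ) → M2 k)) :
    localConds p rb Lp q A = condUnip rb A := if_neg hqp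

/-- The strict ordinary conditions have dimension at most four at `p` and three elsewhere. -/
theorem finrank_strictConds_le [Finite k] (hA : A.LiesOverPrime q) (hq : q.Prime) (hp : p.Prime)
    (hp2 : p ≠ 2) (hpk : (p : k) = 0) (h2 : (2 : k) ≠ 0)
    (hrb : ∃ F : IntermediateField ℚ Qbar, FiniteDimensional ℚ F ∧
      ∀ σ : GalQ, (∀ x ∈ F, σ x = x) → rb σ = 1) :
    FiniteDimensional k (strictConds p rb q A) ∧
      Module.finrank k (strictConds p rb q A) ≤ if q = p then 4 else 3 := by
  by_cases hqp : q = p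
  · subst hqp
    rw [strictConds, localConds_self, if_pos rfl]
    exact finrank_Lord_le hA hp hp2 hpk hrb
  · rw [strictConds, localConds_ne hqp, if_neg hqp]
    exact finrank_condUnip_le hA hq hp hqp hpk h2 hrb

end General

section Membership

open Fermat.Agent.TangentBound Fermat.Agent.TWAssembly

variable {𝒪 : Type} [CommRing 𝒪] [IsDomain 𝒪] [IsDiscreteValuationRing 𝒪]
  [IsAdicComplete (maximalIdeal 𝒪) 𝒪] {ρbar : ResidualGaloisRep (ResidueField 𝒪)}
  (b : Basis (Fin 2) (ResidueField 𝒪) ρbar.V) {p q : ℕ}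
  {P : ValuationSubring (AlgebraicClosure ℚ)}

omit [IsAdicComplete (maximalIdeal 𝒪) 𝒪] in
/-- The residual matrix representation factors through a finite level. -/
theorem exists_level_rbOf : ∃ F : IntermediateField ℚ Qbar, FiniteDimensional ℚ F ∧
    ∀ σ : GalQ, (∀ x ∈ F, σ x = x) → rbOf ρbar b σ = 1 := by
  obtain ⟨F, hF, h⟩ := ρbar.factorsThroughFiniteLevel
  exact ⟨F, hF, fun σ hσ => by rw [rbOf_apply, h σ hσ]; exact LinearMap.toMatrix_one _⟩

omit [IsAdicComplete (maximalIdeal 𝒪) 𝒪] in
theorem exists_inertia_ne_one (hq : q.Prime) (hram : ¬ ρbar.IsUnramifiedAt q)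
    (hP : P.LiesOverPrime q) : ∃ σ ∈ P.inertiaSubgroupIn ℚ, rbOf ρbar b σ ≠ 1 := by
  by_contra! hcon
  exact hram fun B hB => map_inertia_eq_one_of_one_place ρbar.ρ hP hq (fun σ hσ => by
    refine (LinearMap.toMatrix b b).injective ?_
    rw [← rbOf_apply, hcon σ hσ]
    exact (LinearMap.toMatrix_one _).symm) hB

variable {𝒟 : ∀ ⦃A : Type⦄ [CommRing A] [IsLocalRing A] [Algebra 𝒪 A], GaloisRepAdic A → Prop}
  (DQ : GaloisRep.DeformationRingData 𝒪 ρbar 𝒟) (V : (Mat2 (ResidueField 𝒪))ˣ)

/-- Unipotent deformations at a ramified prime of `ρ̄`. -/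
theorem resPlace_mem_condUnip
    (hV : ∀ σ, (V : Mat2 (ResidueField 𝒪)) * barMat DQ σ = rbOf ρbar b σ * V)
    (hp : p.Prime) (hdet : DQ.ρ.DetIsCyclotomic p) (hq : q.Prime)
    (hram : ¬ ρbar.IsUnramifiedAt q) (hunip : DQ.ρ.IsUnipotentOnInertiaAt q)
    (hP : P.LiesOverPrime q) (d : derSpace DQ.residue_surjective) :
    resPlace P (conjMap V (tangentCocycle DQ d)) ∈ condUnip (rbOf ρbar b) P := by
  rw [condUnip, if_pos ⟨fun σ hσ => (det_trace_rb_of_unipotent DQ _ V hV hunip hP hσ).2,
    exists_inertia_ne_one b hq hram hP⟩]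
  exact resPlace_mem_Lunip DQ _ V hV hp hdet hunip hP d

/-- The membership hypothesis of the assembly for the strict ordinary conditions. -/
theorem strictConds_mem (hp : p.Prime) (hp2 : p ≠ 2) (Smin : Finset ℕ)
    (hSmin : ∀ q ∈ Smin, q.Prime)
    (hram : ∀ q ∈ Smin, q ≠ p → ¬ ρbar.IsUnramifiedAt q) (T : Finset ℕ)
    (DQ : GaloisRep.DeformationRingData 𝒪 ρbar (fun _A _ _ _ ρ =>
      GaloisRep.strictOrdinaryCondition 𝒪 p T ρ ∧
        ∀ q ∈ Smin, q.Prime → q ≠ p → ρ.IsUnipotentOnInertiaAt q))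
    (V : (Mat2 (ResidueField 𝒪))ˣ)
    (hV : ∀ σ, (V : Mat2 (ResidueField 𝒪)) * barMat DQ σ = rbOf ρbar b σ * V)
    (d : derSpace DQ.residue_surjective) (q : ℕ) (hq : q ∈ Smin)
    (P : ValuationSubring (AlgebraicClosure ℚ)) (hP : P.LiesOverPrime q) :
    resPlace P (conjMap V (tangentCocycle DQ d)) ∈ strictConds p (rbOf ρbar b) q P := by
  by_cases hqp : q = p
  · subst hqp
    rw [strictConds, localConds_self]
    exact resPlace_mem_Lord DQ _ V hV hp hp2 DQ.isOfType.1.1 DQ.isOfType.1.2.1 hP d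
  · rw [strictConds, localConds_ne hqp]
    exact resPlace_mem_condUnip b DQ V hV hp DQ.isOfType.1.1 (hSmin q hq) (hram q hq hqp)
      (DQ.isOfType.2 q hq (hSmin q hq) hqp) hP d

end Membership

end Fermat.Agent.TWLocal
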