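import Fermat.Agent.TWLocal.Generation
import Mathlib.LinearAlgebra.Matrix.Notation
import Mathlib.LinearAlgebra.Matrix.NonsingularInverse
import Mathlib.Tactic

/-!
# Local conditions away from `p`

At a prime `q ≠ p` with `q ≡ 1 (mod p)` where `rb` is unramified with distinct Frobenius
eigenvalues the cocycles form a space of dimension at most four; at a prime where inertia acts
unipotently and nontrivially those on which it stays unipotent form a space of dimension at most
three.
-/

set_option autoImplicit false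

open Fermat.Agent.GaloisBasics

namespace Fermat.Agent.TWLocal

variable {k : Type} [Field k]

/-- The linearised condition that inertia acts unipotently. -/
def Lunip (rb : GalQ →* M2 k) (A : ValuationSubring Qbar) :
    Submodule k (↥(A.decompositionSubgroup ℚ) → M2 k) where
  carrier := {c | c ∈ Z1 rb (A.decompositionSubgroup ℚ) ∧
    ∀ σ : ↥(A.decompositionSubgroup ℚ), (σ : GalQ) ∈ A.inertiaSubgroupIn ℚ →
      (c σ * rb σ).trace = 0}
  zero_mem' := ⟨zero_mem _, fun σ _ => by simp⟩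
  add_mem' {a b} ha hb := ⟨add_mem ha.1 hb.1, fun σ hσ => by
    rw [Pi.add_apply, add_mul, Matrix.trace_add, ha.2 σ hσ, hb.2 σ hσ, add_zero]⟩
  smul_mem' a c hc := ⟨Submodule.smul_mem _ a hc.1, fun σ hσ => by
    rw [Pi.smul_apply, smul_mul_assoc, Matrix.trace_smul, hc.2 σ hσ, smul_zero]⟩

/-- Trace zero matrices are determined by three entries. -/
theorem eq_zero_of_trace {X : M2 k} (ht : X.trace = 0) (h0 : X 0 0 = 0) (h1 : X 0 1 = 0)
    (h2 : X 1 0 = 0) : X = 0 := by
  have h3 : X 1 1 = 0 := by rwa [Matrix.trace_fin_two, h0, zero_add] at ht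
  ext i j
  fin_cases i <;> fin_cases j <;> simpa

/-- Three entries of a matrix. -/
def entries3 : M2 k →ₗ[k] (Fin 3 → k) where
  toFun X := ![X 0 0, X 0 1, X 1 0]
  map_add' X Y := by ext i; fin_cases i <;> rfl
  map_smul' a X := by ext i; fin_cases i <;> rfl

theorem eq_zero_of_entries3 {X : M2 k} (ht : X.trace = 0) (h : entries3 X = 0) : X = 0 :=
  eq_zero_of_trace ht (congrFun h 0) (congrFun h 1) (congrFun h 2)

/-- Conjugation of matrices by an invertible matrix. -/
noncomputable def conjM (U : (M2 k)ˣ) : M2 k →ₗ[k] M2 k where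
  toFun X := (↑U⁻¹ : M2 k) * X * U
  map_add' X Y := by rw [mul_add, add_mul]
  map_smul' a X := by rw [mul_smul_comm, smul_mul_assoc, RingHom.id_apply]

/-- `conjM U` sends `X` to `U⁻¹ * X * U`. -/
theorem conjM_apply (U : (M2 k)ˣ) (X : M2 k) : conjM U X = (↑U⁻¹ : M2 k) * X * U := rfl

/-- Conjugation respects products. -/
theorem conjM_mul (U : (M2 k)ˣ) (X Y : M2 k) : conjM U (X * Y) = conjM U X * conjM U Y := by
  simp only [conjM_apply, mul_assoc, Units.mul_inv_cancel_left]

/-- Conjugation preserves the trace. -/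
theorem trace_conjM (U : (M2 k)ˣ) (X : M2 k) : (conjM U X).trace = X.trace := by
  rw [conjM_apply, mul_assoc, Matrix.trace_mul_comm, mul_assoc, Units.mul_inv, mul_one]

/-- Conjugation fixes the identity. -/
theorem conjM_one (U : (M2 k)ˣ) : conjM U (1 : M2 k) = 1 := by
  rw [conjM_apply, mul_one, Units.inv_mul]

theorem conjM_pow (U : (M2 k)ˣ) (X : M2 k) (n : ℕ) : conjM U (X ^ n) = conjM U X ^ n := by
  induction n with
  | zero => rw [pow_zero, pow_zero, conjM_one]
  | succ n ih => rw [pow_succ, pow_succ, conjM_mul, ih]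

theorem conjM_eq_zero (U : (M2 k)ˣ) {X : M2 k} (h : conjM U X = 0) : X = 0 := by
  rw [conjM_apply] at h
  simpa [mul_assoc] using congrArg (fun Y => (U : M2 k) * Y * (↑U⁻¹ : M2 k)) h

/-- The adjoint action intertwines `X` with right and left multiplication by `rb σ`. -/
theorem adj_mul_self (rb : GalQ →* M2 k) (σ : GalQ) (X : M2 k) :
    adj rb σ X * rb σ = rb σ * X := by
  rw [adj_apply, mul_assoc, rb_inv_mul, mul_one]

/-- The intertwining relation of the adjoint action in the frame `U`. -/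
theorem cocycle_adj_eq {rb : GalQ →* M2 k} (U : (M2 k)ˣ) (σ : GalQ) (X : M2 k) :
    conjM U (adj rb σ X) * conjM U (rb σ) = conjM U (rb σ) * conjM U X := by
  rw [← conjM_mul, ← conjM_mul, adj_mul_self]

variable {A : ValuationSubring Qbar} {q : ℕ} {rb : GalQ →* M2 k}

variable {p : ℕ}

/-- All classes at a prime `q` which is `1` mod `p`, unramified for `rb` with distinct Frobenius
eigenvalues: dimension at most four. -/
theorem finrank_Z1_tame_le (hA : A.LiesOverPrime q) (hq : q.Prime) (hp : p.Prime) (hqp : q ≠ p)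
    (hqk : (q : k) = 1)
    (hrb : ∃ F : IntermediateField ℚ Qbar, FiniteDimensional ℚ F ∧
      ∀ σ : GalQ, (∀ x ∈ F, σ x = x) → rb σ = 1)
    (hI : ∀ σ ∈ A.inertiaSubgroupIn ℚ, rb σ = 1) {φ : GalQ} (hφ : A.IsFrobeniusAt φ q)
    (U : (M2 k)ˣ) (h01 : conjM U (rb φ) 0 1 = 0) (h10 : conjM U (rb φ) 1 0 = 0)
    (hne : conjM U (rb φ) 0 0 ≠ conjM U (rb φ) 1 1) :
    FiniteDimensional k (Z1 rb (A.decompositionSubgroup ℚ)) ∧
      Module.finrank k (Z1 rb (A.decompositionSubgroup ℚ)) ≤ 4 := by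
  obtain ⟨F₀, hF₀, hrbF₀⟩ := hrb
  refine finrank_le_of_levels _ 4 F₀ (fun c hc => hc.2.2) fun F hle hfd hn => ?_
  obtain ⟨t, ht, -, -, hdet⟩ := exists_inertia_determining (rb := rb) hA hq hp hqp
    (by rw [hqk]; exact one_ne_zero) F (fun σ hσ => hrbF₀ σ fun x hx => hσ x (hle hx))
    (fun σ hσ => by rw [hI σ hσ, one_pow]) hφ
  set Φ : A.decompositionSubgroup ℚ := ⟨φ, hφ.mem_decompositionSubgroup⟩
  set T : A.decompositionSubgroup ℚ := ⟨t, inertia_le ht⟩
  refine ⟨(Fin 3 → k) × k, inferInstance, inferInstance, inferInstance,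
    ((entries3.comp (conjM U)).comp (LinearMap.proj Φ)).prod
      (((Matrix.entryLinearMap k k 0 0).comp (conjM U)).comp (LinearMap.proj T)),
    by simp, fun c hc hcF h => ?_⟩
  obtain ⟨hrel, hzero⟩ := hdet c hc hcF
  have h1 : conjM U (c Φ) = 0 :=
    eq_zero_of_entries3 (by rw [trace_conjM, hc.2.1]) (congrArg Prod.fst h)
  have h1' : c Φ = 0 := conjM_eq_zero U h1
  refine hzero h1' (conjM_eq_zero U ?_)
  have hTrb : rb (T : GalQ) = 1 := hI t ht
  rw [cocycle_conj hc, h1', map_zero, zero_add, sub_zero, cocycle_pow_of_eq_one hc hTrb,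
    ← Nat.cast_smul_eq_nsmul k, hqk, one_smul] at hrel
  have h2 := cocycle_adj_eq (rb := rb) U φ (c T)
  rw [show adj rb φ (c T) = c T from hrel] at h2
  set C := conjM U (c T)
  set g := conjM U (rb φ)
  have hC00 : C 0 0 = 0 := congrArg Prod.snd h
  have e01 := congrFun (congrFun h2 0) 1
  have e10 := congrFun (congrFun h2 1) 0
  simp only [Matrix.mul_apply, Fin.sum_univ_two, h01, h10, mul_zero, zero_mul, add_zero,
    zero_add] at e01 e10
  have hd : g 1 1 - g 0 0 ≠ 0 := sub_ne_zero.2 (Ne.symm hne)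
  refine eq_zero_of_trace (by rw [trace_conjM, hc.2.1]) hC00 ?_ ?_
  · exact (mul_eq_zero.1
      (show C 0 1 * (g 1 1 - g 0 0) = 0 by linear_combination e01)).resolve_right hd
  · exact (mul_eq_zero.1
      (show C 1 0 * (g 1 1 - g 0 0) = 0 by linear_combination -e10)).resolve_right hd

/-- The unipotent Jordan block with parameter `a`. -/
def jordan (a : k) : M2 k := !![1, a; 0, 1]

theorem jordan_mul (a b : k) : jordan a * jordan b = jordan (a + b) := by
  ext i j
  fin_cases i <;> fin_cases j <;> simp [jordan, Matrix.mul_apply, Fin.sum_univ_two, add_comm]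

theorem jordan_pow (a : k) (n : ℕ) : jordan a ^ n = jordan (n * a) := by
  induction n with
  | zero => ext i j; fin_cases i <;> fin_cases j <;> simp [jordan]
  | succ n ih => rw [pow_succ, ih, jordan_mul]; push_cast; ring_nf

theorem sq_eq_zero_of_det_trace {Y : M2 k} (hd : Y.det = 0) (ht : Y.trace = 0) : Y * Y = 0 := by
  rw [Matrix.det_fin_two] at hd
  rw [Matrix.trace_fin_two] at ht
  ext i j
  fin_cases i <;> fin_cases j <;> simp [Matrix.mul_apply, Fin.sum_univ_two] <;> grind

/-- A unipotent matrix is killed by the characteristic. -/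
theorem pow_char_eq_one {X : M2 k} (hd : X.det = 1) (ht : X.trace = 2) (hpk : (p : k) = 0) :
    X ^ p = 1 := by
  have hY : (X - 1) * (X - 1) = 0 := by
    refine sq_eq_zero_of_det_trace ?_ ?_
    · rw [Matrix.det_fin_two] at hd ⊢
      rw [Matrix.trace_fin_two] at ht
      simp only [Matrix.sub_apply, Matrix.one_apply_eq,
        Matrix.one_apply_ne (by decide : (0 : Fin 2) ≠ 1),
        Matrix.one_apply_ne (by decide : (1 : Fin 2) ≠ 0), sub_zero]
      linear_combination hd - ht
    · rw [Matrix.trace_sub, ht, Matrix.trace_one]; simp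
  have key : ∀ n : ℕ, X ^ n = 1 + (n : k) • (X - 1) := fun n => by
    induction n with
    | zero => simp
    | succ n ih =>
      have hX : X = 1 + (X - 1) := (add_sub_cancel _ _).symm
      rw [pow_succ, ih, Nat.cast_succ, add_smul, one_smul]
      nth_rw 2 [hX]
      rw [add_mul, one_mul, smul_mul_assoc, mul_add, mul_one, hY, add_zero]
      abel
  rw [key, hpk, zero_smul, add_zero]

/-- A nontrivial unipotent matrix is conjugate to the Jordan block. -/
theorem exists_conjM_eq_jordan {X : M2 k} (hd : X.det = 1) (ht : X.trace = 2) (hne : X ≠ 1) :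
    ∃ U : (M2 k)ˣ, conjM U X = jordan 1 := by
  rw [Matrix.det_fin_two] at hd
  rw [Matrix.trace_fin_two] at ht
  -- the columns are `(X - 1) w` and `w`
  suffices h : ∃ W : M2 k, W.det ≠ 0 ∧ X * W = W * jordan 1 by
    obtain ⟨W, hW, hXW⟩ := h
    have hu : IsUnit W := (Matrix.isUnit_iff_isUnit_det W).2 (isUnit_iff_ne_zero.2 hW)
    refine ⟨hu.unit, ?_⟩
    rw [conjM_apply, mul_assoc, IsUnit.unit_spec, hXW, ← mul_assoc, hu.val_inv_mul, one_mul]
  by_cases h10 : X 1 0 = 0
  · have h00 : X 0 0 = 1 := by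
      have : (X 0 0 - 1) * (X 0 0 - 1) = 0 := by
        linear_combination (X 0 0) * ht - hd - (X 0 1) * h10
      exact sub_eq_zero.1 (mul_self_eq_zero.1 this)
    have h11 : X 1 1 = 1 := by linear_combination ht - h00
    have h01 : X 0 1 ≠ 0 := fun h01 => hne (by
      ext i j
      fin_cases i <;> fin_cases j <;> simp [h00, h11, h01, h10])
    refine ⟨!![X 0 1, 0; 0, 1], by simp [Matrix.det_fin_two, h01], ?_⟩
    ext i j
    fin_cases i <;> fin_cases j <;>
      simp [jordan, Matrix.mul_apply, Fin.sum_univ_two, h00, h11, h10]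
  · refine ⟨!![X 0 0 - 1, 1; X 1 0, 0], by simp [Matrix.det_fin_two, h10], ?_⟩
    ext i j
    fin_cases i <;> fin_cases j <;> simp [jordan, Matrix.mul_apply, Fin.sum_univ_two] <;> grind

/-- The unipotent classes at a prime where `rb` is ramified: dimension at most three. -/
theorem finrank_Lunip_le (hA : A.LiesOverPrime q) (hq : q.Prime) (hp : p.Prime) (hqp : q ≠ p)
    (hpk : (p : k) = 0) (h2 : (2 : k) ≠ 0)
    (hrb : ∃ F : IntermediateField ℚ Qbar, FiniteDimensional ℚ F ∧
      ∀ σ : GalQ, (∀ x ∈ F, σ x = x) → rb σ = 1)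
    (hI : ∀ σ ∈ A.inertiaSubgroupIn ℚ, (rb σ).det = 1 ∧ (rb σ).trace = 2)
    (hram : ∃ σ ∈ A.inertiaSubgroupIn ℚ, rb σ ≠ 1) :
    FiniteDimensional k (Lunip rb A) ∧ Module.finrank k (Lunip rb A) ≤ 3 := by
  obtain ⟨F₀, hF₀, hrbF₀⟩ := hrb
  obtain ⟨φ, hφ⟩ := exists_isFrobeniusAt hA hq
  have : Fact p.Prime := ⟨hp⟩
  have : CharP k p := (CharP.charP_iff_prime_eq_zero hp).2 hpk
  have hqk : (q : k) ≠ 0 := fun h => hqp
    ((Nat.prime_dvd_prime_iff_eq hp hq).1 ((CharP.cast_eq_zero_iff k p q).1 h)).symm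
  refine finrank_le_of_levels _ 3 F₀ (fun c hc => hc.1.2.2) fun F hle hfd hn => ?_
  obtain ⟨t, ht, hgen, hconj, hdet⟩ := exists_inertia_determining (rb := rb) hA hq hp hqp hqk F
    (fun σ hσ => hrbF₀ σ fun x hx => hσ x (hle hx))
    (fun σ hσ => pow_char_eq_one (hI σ hσ).1 (hI σ hσ).2 hpk) hφ
  set Φ : A.decompositionSubgroup ℚ := ⟨φ, hφ.mem_decompositionSubgroup⟩
  set T : A.decompositionSubgroup ℚ := ⟨t, inertia_le ht⟩
  have hne : rb t ≠ 1 := fun h => by
    obtain ⟨σ, hσ, hσne⟩ := hram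
    obtain ⟨j, hj⟩ := hgen σ hσ
    exact hσne (by rw [hj, h, one_pow])
  obtain ⟨U, hU⟩ := exists_conjM_eq_jordan (hI t ht).1 (hI t ht).2 hne
  refine ⟨(Fin 2 → k) × k, inferInstance, inferInstance, inferInstance,
    ((LinearMap.pi fun j : Fin 2 => (Matrix.entryLinearMap k k 0 j).comp (conjM U)).comp
      (LinearMap.proj T)).prod
      (((Matrix.entryLinearMap k k 0 1).comp (conjM U)).comp (LinearMap.proj Φ)),
    by simp, fun c hc hcF h => ?_⟩
  obtain ⟨hrel, hzero⟩ := hdet c hc.1 hcF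
  have hA0 : conjM U (c T) 0 0 = 0 := congrFun (congrArg Prod.fst h) 0
  have hB0 : conjM U (c T) 0 1 = 0 := congrFun (congrArg Prod.fst h) 1
  have htr : (conjM U (c T) * conjM U (rb t)).trace = 0 := by
    rw [← conjM_mul, trace_conjM]
    exact hc.2 T ht
  have hT0 : c T = 0 := by
    refine conjM_eq_zero U (eq_zero_of_trace (by rw [trace_conjM, hc.1.2.1]) hA0 hB0 ?_)
    have htr2 : (conjM U (c T)).trace = 0 := by rw [trace_conjM, hc.1.2.1]
    rw [hU, Matrix.trace_fin_two] at htr
    rw [Matrix.trace_fin_two, hA0, zero_add] at htr2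
    simpa [jordan, Matrix.mul_apply, Fin.sum_univ_two, hA0, htr2] using htr
  refine hzero (conjM_eq_zero U ?_) hT0
  rw [cocycle_pow_eq_zero hc.1 hT0, cocycle_conj hc.1, hT0, map_zero, add_zero, sub_eq_zero]
    at hrel
  have h3 := cocycle_adj_eq (rb := rb) U (φ * t * φ⁻¹) (c Φ)
  rw [show adj rb (φ * t * φ⁻¹) (c Φ) = c Φ from hrel.symm, hconj, conjM_pow, hU, jordan_pow,
    mul_one] at h3
  set P := conjM U (c Φ)
  have hb : P 0 1 = 0 := congrArg Prod.snd h
  have hPt : P.trace = 0 := by rw [trace_conjM, hc.1.2.1]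
  rw [Matrix.trace_fin_two] at hPt
  have e00 := congrFun (congrFun h3 0) 0
  have e01 := congrFun (congrFun h3 0) 1
  simp only [jordan, Matrix.mul_apply, Fin.sum_univ_two, Matrix.of_apply, Matrix.cons_val',
    Matrix.cons_val_zero, Matrix.cons_val_one, Matrix.empty_val', Matrix.cons_val_fin_one,
    mul_one, one_mul, mul_zero, add_zero] at e00 e01
  have hz : P 1 0 = 0 :=
    (mul_eq_zero.1 (show (q : k) * P 1 0 = 0 by linear_combination -e00)).resolve_left hqk
  have ha : P 0 0 = 0 := by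
    have : ((2 : k) * q) * P 0 0 = 0 := by linear_combination e01 + (q : k) * hPt
    exact (mul_eq_zero.1 this).resolve_left (mul_ne_zero h2 hqk)
  exact eq_zero_of_trace (by rwa [Matrix.trace_fin_two]) ha hb hz

end Fermat.Agent.TWLocal
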