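import Mathlib.RingTheory.RootsOfUnity.Lemmas
import Mathlib.RingTheory.Polynomial.Cyclotomic.Basic
import Mathlib.RingTheory.RootsOfUnity.AlgebraicallyClosed
import Mathlib.FieldTheory.Finite.Basic
import Mathlib.Tactic
import Fermat.Agent.LocalCond.FixedApprox
import Fermat.Agent.LocalInertia.CyclicTame

/-!
# The units of the decomposition field at `p` modulo `p`-th powers

For odd `p` a nonzero element fixed by the decomposition group at `p` is `p ^ i * (1 + p) ^ j` times
the `p`-th power of a fixed element.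
-/

set_option autoImplicit false

open Fermat.Agent.GaloisBasics

namespace Fermat.Agent.TWLocal

variable {A : ValuationSubring Qbar} {p : ℕ}

/-- Being fixed by the decomposition group. -/
def DFixed (A : ValuationSubring Qbar) (x : Qbar) : Prop :=
  ∀ σ ∈ A.decompositionSubgroup ℚ, σ x = x

/-- Natural numbers are fixed. -/
theorem DFixed.natCast (A : ValuationSubring Qbar) (n : ℕ) : DFixed A (n : Qbar) :=
  fun σ _ => map_natCast σ n

/-- Products of fixed elements are fixed. -/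
theorem DFixed.mul {x y : Qbar} (hx : DFixed A x) (hy : DFixed A y) : DFixed A (x * y) :=
  fun σ hσ => by rw [map_mul, hx σ hσ, hy σ hσ]

theorem DFixed.inv {x : Qbar} (hx : DFixed A x) : DFixed A x⁻¹ :=
  fun σ hσ => by rw [map_inv₀, hx σ hσ]

/-- Powers of fixed elements are fixed. -/
theorem DFixed.pow {x : Qbar} (hx : DFixed A x) (n : ℕ) : DFixed A (x ^ n) :=
  fun σ hσ => by rw [map_pow, hx σ hσ]

/-- Integer powers of fixed elements are fixed. -/
theorem DFixed.zpow {x : Qbar} (hx : DFixed A x) (n : ℤ) : DFixed A (x ^ n) :=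
  fun σ hσ => by rw [map_zpow₀, hx σ hσ]

theorem valuation_p_pos (hp : p.Prime) : 0 < A.valuation (p : Qbar) :=
  zero_lt_iff.2 ((map_ne_zero A.valuation).2 (Nat.cast_ne_zero.2 hp.ne_zero))

theorem valuation_p_lt_one (hA : A.LiesOverPrime p) : A.valuation (p : Qbar) < 1 :=
  A.mem_nonunits_iff.1 hA

/-- The value group of the decomposition field is generated by the value of `p`. -/
theorem exists_valuation_eq_zpow (hA : A.LiesOverPrime p) (hp : p.Prime) {x : Qbar}
    (hx : DFixed A x) (hx0 : x ≠ 0) : ∃ e : ℤ, A.valuation x = A.valuation (p : Qbar) ^ e := by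
  suffices h : ∀ y : Qbar, DFixed A y → y ≠ 0 → A.valuation y ≤ 1 →
      ∃ e : ℤ, A.valuation y = A.valuation (p : Qbar) ^ e by
    rcases le_total (A.valuation x) 1 with h1 | h1
    · exact h x hx hx0 h1
    · obtain ⟨e, he⟩ := h x⁻¹ hx.inv (inv_ne_zero hx0) (by
        rw [map_inv₀]; exact inv_le_one_of_one_le₀ h1)
      exact ⟨-e, by rw [zpow_neg, ← he, map_inv₀, inv_inv]⟩
  intro y hy hy0 hy1
  have : FiniteDimensional ℚ (IntermediateField.adjoin ℚ ({y} : Set Qbar)) :=
    IntermediateField.adjoin.finiteDimensional (Algebra.IsAlgebraic.isAlgebraic y).isIntegral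
  obtain ⟨j, hj⟩ := LocalInertia.exists_valuation_pow_factorial hp hA
    (IntermediateField.adjoin ℚ ({y} : Set Qbar)) (IntermediateField.mem_adjoin_simple_self ℚ y)
    hy0
  obtain ⟨m, hm⟩ := LocalCond.exists_int_valuation_sub_le hA hp
    ((A.valuation_le_one_iff y).1 hy1) hy (j.toNat + 1)
  have hP0 := valuation_p_pos (A := A) hp
  have hP1 := valuation_p_lt_one hA
  have hlt : A.valuation (y - m) < A.valuation y := by
    by_contra hcon
    push Not at hcon
    have h1 : A.valuation y ≤ A.valuation (p : Qbar) ^ (j.toNat + 1) := hcon.trans hm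
    set N := (Module.finrank ℚ (IntermediateField.adjoin ℚ ({y} : Set Qbar))).factorial
    have hN : 0 < N := Nat.factorial_pos _
    have h2 : A.valuation (p : Qbar) ^ j ≤ A.valuation (p : Qbar) ^ ((j.toNat + 1 : ℕ) : ℤ) := by
      rw [← hj, zpow_natCast]
      refine (pow_le_pow_left' h1 N).trans ?_
      conv_rhs => rw [← pow_one (A.valuation (p : Qbar) ^ (j.toNat + 1))]
      exact pow_le_pow_right_of_le_one' (pow_le_one₀ zero_le hP1.le) hN
    have h3 := (zpow_le_zpow_iff_right_of_lt_one₀ hP0 hP1).1 h2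
    have h4 := Int.self_le_toNat j
    omega
  have hmv : A.valuation (m : Qbar) = A.valuation y := by
    have h := A.valuation.map_sub_eq_of_lt_left (x := y) (y := y - m) hlt
    rwa [sub_sub_cancel] at h
  have hm0 : m ≠ 0 := fun h => by
    rw [h, Int.cast_zero, map_zero] at hmv
    exact (map_ne_zero A.valuation).2 hy0 hmv.symm
  obtain ⟨e, he⟩ := LocalInertia.exists_valuation_ratCast_eq_zpow hp hA
    (c := (m : ℚ)) (Int.cast_ne_zero.2 hm0) (A := A)
  exact ⟨e, by rw [← hmv, ← he, Rat.cast_intCast]⟩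

theorem valuation_pow_root_sub_one {ζ : Qbar} (hA : A.LiesOverPrime p) (hp : p.Prime)
    (hζ : IsPrimitiveRoot ζ p) :
    A.valuation (ζ - 1) < 1 ∧ A.valuation (ζ - 1) ^ (p - 1) = A.valuation (p : Qbar) ∧
      ∀ μ : Qbar, μ ^ p = 1 → μ ≠ 1 → A.valuation (μ - 1) = A.valuation (ζ - 1) := by
  have hle : ∀ (ν : Qbar), ν ^ p = 1 → ∀ i : ℕ, A.valuation (ν ^ i - 1) ≤ A.valuation (ν - 1) := by
    intro ν hν i
    rw [← geom_sum_mul, map_mul]
    refine mul_le_of_le_one_left' ((A.valuation_le_one_iff _).2 (sum_mem fun j _ => pow_mem ?_ _))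
    exact mem_of_isIntegral A (IsIntegral.of_pow hp.pos (by rw [hν]; exact isIntegral_one))
  have key : ∀ μ : Qbar, μ ^ p = 1 → μ ≠ 1 → A.valuation (μ - 1) = A.valuation (ζ - 1) := by
    intro μ hμ hμ1
    have : NeZero p := ⟨hp.ne_zero⟩
    obtain ⟨i, -, rfl⟩ := hζ.eq_pow_of_pow_eq_one hμ
    refine le_antisymm (hle ζ hζ.pow_eq_one i) ?_
    have hprim : IsPrimitiveRoot (ζ ^ i) p := by
      refine hζ.pow_of_coprime i ((hp.coprime_iff_not_dvd.2 fun hdvd => hμ1 ?_).symm)
      rw [hζ.pow_eq_one_iff_dvd]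
      exact hdvd
    obtain ⟨j, -, hj⟩ := hprim.eq_pow_of_pow_eq_one hζ.pow_eq_one
    have h := hle _ hμ j
    rwa [hj] at h
  have hprod : A.valuation (ζ - 1) ^ (p - 1) = A.valuation (p : Qbar) := by
    obtain ⟨n, rfl⟩ : ∃ n, p = n + 1 := ⟨p - 1, (Nat.succ_pred_eq_of_pos hp.pos).symm⟩
    rw [Nat.cast_add_one, ← hζ.prod_one_sub_pow_eq_order, map_prod, Nat.add_sub_cancel]
    rw [Finset.prod_congr rfl fun i hi => ?_, Finset.prod_const, Finset.card_range]
    rw [Valuation.map_sub_swap]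
    refine key _ (by rw [pow_right_comm, hζ.pow_eq_one, one_pow])
      (hζ.pow_ne_one_of_pos_of_lt (Nat.succ_ne_zero i) ?_)
    have := Finset.mem_range.1 hi
    omega
  refine ⟨not_le.1 fun h1 => ?_, hprod, key⟩
  exact (lt_irrefl (1 : A.ValueGroup))
    ((one_le_pow₀ h1).trans_lt (hprod.trans_lt (valuation_p_lt_one hA)))

/-- A fixed element congruent to one modulo `p²` is a `p`-th power of a fixed element. -/
theorem exists_pow_eq_of_near_one (hA : A.LiesOverPrime p) (hp : p.Prime) (hp2 : p ≠ 2)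
    {z : Qbar} (hz : DFixed A z)
    (hz1 : A.valuation (z - 1) ≤ A.valuation (p : Qbar) ^ 2) :
    ∃ w : Qbar, DFixed A w ∧ w ^ p = z := by
  have : NeZero p := ⟨hp.ne_zero⟩
  have : NeZero (p : Qbar) := ⟨Nat.cast_ne_zero.2 hp.ne_zero⟩
  obtain ⟨ζ, hζ⟩ := HasEnoughRootsOfUnity.exists_primitiveRoot Qbar p
  obtain ⟨hε1, hεp, hroot⟩ := valuation_pow_root_sub_one hA hp hζ
  set ε := A.valuation (ζ - 1)
  have hε0 : 0 < ε := zero_lt_iff.2 ((map_ne_zero A.valuation).2
    (sub_ne_zero.2 (hζ.ne_one hp.one_lt)))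
  obtain ⟨b, hb⟩ := IsAlgClosed.exists_pow_nat_eq z hp.pos
  have hprod := hζ.pow_sub_pow_eq_prod_sub_mul b 1 hp.pos
  rw [one_pow, hb] at hprod
  simp only [mul_one] at hprod
  obtain ⟨μ, hμ, hμlt⟩ : ∃ μ ∈ Polynomial.nthRootsFinset p (1 : Qbar),
      A.valuation (b - μ) < ε := by
    by_contra! hall
    have h1 : ε ^ p ≤ A.valuation (z - 1) := by
      rw [hprod, map_prod]
      conv_lhs => rw [← hζ.card_nthRootsFinset, ← Finset.prod_const]
      exact Finset.prod_le_prod (fun _ _ => zero_le) hall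
    have h2 : A.valuation (p : Qbar) ^ 2 < ε ^ p := by
      rw [← hεp, ← pow_mul]
      refine pow_lt_pow_right_of_lt_one₀ hε0 hε1 ?_
      have := hp.two_le
      omega
    exact lt_irrefl _ ((h1.trans hz1).trans_lt h2)
  rw [Polynomial.mem_nthRootsFinset hp.pos] at hμ
  have hμ0 : μ ≠ 0 := fun h => by simp [h, zero_pow hp.ne_zero] at hμ
  have hμv : A.valuation μ = 1 := by
    have h := congrArg A.valuation hμ
    rw [map_pow, map_one] at h
    exact (pow_eq_one_iff.1 h).resolve_right hp.ne_zero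
  have hw : (b / μ) ^ p = z := by rw [div_pow, hb, hμ, div_one]
  have hw1 : A.valuation (b / μ - 1) < ε := by
    rw [← div_self hμ0, ← sub_div, map_div₀, hμv, div_one]
    exact hμlt
  refine ⟨b / μ, fun σ hσ => ?_, hw⟩
  generalize b / μ = w at hw hw1
  have hw0 : w ≠ 0 := by
    rintro rfl
    rw [zero_pow hp.ne_zero] at hw
    rw [← hw, zero_sub, Valuation.map_neg, map_one] at hz1
    exact lt_irrefl _ (hz1.trans_lt (pow_lt_one₀ zero_le (valuation_p_lt_one hA) two_ne_zero))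
  by_contra hne
  have hr : (σ w / w) ^ p = 1 := by
    rw [div_pow, ← map_pow, hw, hz σ hσ, div_self]
    rw [← hw]
    exact pow_ne_zero _ hw0
  have hr1 : σ w / w ≠ 1 := fun h => hne ((div_eq_one_iff_eq hw0).1 h)
  have h1 := hroot _ hr hr1
  have hwv : A.valuation w = 1 := by
    have h := A.valuation.map_add_eq_of_lt_left (x := (1 : Qbar)) (y := w - 1)
      (by rw [map_one]; exact hw1.trans hε1)
    rwa [add_sub_cancel, map_one] at h
  have h2 : A.valuation (σ w / w - 1) < ε := by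
    have e : σ w / w - 1 = (σ (w - 1) - (w - 1)) / w := by
      rw [map_sub, map_one]
      field_simp
      ring
    rw [e, map_div₀, hwv, div_one]
    exact A.valuation.map_sub_lt ((LocalInertia.valuation_apply hσ _).trans_lt hw1) hw1
  exact (lt_irrefl ε) (h1.symm.trans_lt h2)

theorem sq_dvd_one_add_pow_sub (a : ℤ) (n : ℕ) : a ^ 2 ∣ (1 + a) ^ n - (1 + n * a) := by
  induction n with
  | zero => simp
  | succ n ih =>
    obtain ⟨r, hr⟩ := ih
    refine ⟨r * (1 + a) + n, ?_⟩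
    rw [pow_succ, show (1 + a) ^ n = 1 + n * a + a ^ 2 * r by linear_combination hr]
    push_cast
    ring

/-- An integer prime to `p` is `(1 + p) ^ j` times a `p`-th power modulo `p²`. -/
theorem exists_sq_dvd_sub (hp : p.Prime) {m : ℤ} (hm : ¬ (p : ℤ) ∣ m) :
    ∃ j : ℕ, (p : ℤ) ^ 2 ∣ m - (1 + (p : ℤ)) ^ j * m ^ p := by
  have : Fact p.Prime := ⟨hp⟩
  have hm' : ((m : ℤ) : ZMod p) ≠ 0 := by rwa [Ne, ZMod.intCast_zmod_eq_zero_iff_dvd]
  obtain ⟨s, hs⟩ : (p : ℤ) ∣ m - m ^ p := by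
    rw [← ZMod.intCast_zmod_eq_zero_iff_dvd]
    push_cast
    rw [ZMod.pow_card, sub_self]
  refine ⟨((s : ZMod p) / (m : ZMod p) ^ p).val, ?_⟩
  set j := ((s : ZMod p) / (m : ZMod p) ^ p).val with hjdef
  obtain ⟨t, ht⟩ : (p : ℤ) ∣ s - j * m ^ p := by
    rw [← ZMod.intCast_zmod_eq_zero_iff_dvd]
    push_cast
    rw [hjdef, ZMod.natCast_zmod_val, div_mul_cancel₀ _ (pow_ne_zero p hm'), sub_self]
  obtain ⟨r, hr⟩ := sq_dvd_one_add_pow_sub (p : ℤ) j
  refine ⟨t - r * m ^ p, ?_⟩
  linear_combination (-m ^ p) * hr + hs + (p : ℤ) * ht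

/-- Fixed nonzero elements are `p ^ i (1 + p) ^ j` times a `p`-th power of a fixed element. -/
theorem exists_eq_mul_pow (hA : A.LiesOverPrime p) (hp : p.Prime) (hp2 : p ≠ 2) {x : Qbar}
    (hx : DFixed A x) (hx0 : x ≠ 0) :
    ∃ (i : ℤ) (j : ℕ) (w : Qbar), DFixed A w ∧
      x = (p : Qbar) ^ i * ((1 : Qbar) + p) ^ j * w ^ p := by
  obtain ⟨i, hi⟩ := exists_valuation_eq_zpow hA hp hx hx0
  have hpne : (p : Qbar) ≠ 0 := Nat.cast_ne_zero.2 hp.ne_zero
  have hP0 := valuation_p_pos (A := A) hp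
  have hP1 := valuation_p_lt_one hA
  obtain ⟨u, hu, huv, hxu⟩ : ∃ u, DFixed A u ∧ A.valuation u = 1 ∧ x = (p : Qbar) ^ i * u :=
    ⟨x * ((p : Qbar) ^ i)⁻¹, hx.mul ((DFixed.natCast A p).zpow i).inv, by
      rw [map_mul, map_inv₀, map_zpow₀, ← hi, mul_inv_cancel₀ ((map_ne_zero _).2 hx0)],
      by rw [mul_comm x, ← mul_assoc, mul_inv_cancel₀ (zpow_ne_zero _ hpne), one_mul]⟩
  obtain ⟨m, hm⟩ := LocalCond.exists_int_valuation_sub_le hA hp
    ((A.valuation_le_one_iff u).1 huv.le) hu 2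
  have hsq : A.valuation (p : Qbar) ^ 2 < 1 := pow_lt_one₀ zero_le hP1 two_ne_zero
  have hmv : A.valuation (m : Qbar) = 1 := by
    have h := A.valuation.map_sub_eq_of_lt_left (x := u) (y := u - m)
      (by rw [huv]; exact hm.trans_lt hsq)
    rwa [sub_sub_cancel, huv] at h
  have hpm : ¬ (p : ℤ) ∣ m := fun h => by
    have := A.mem_nonunits_iff.1 ((intCast_mem_nonunits_iff hA hp m).2 h)
    exact absurd hmv (ne_of_lt this)
  obtain ⟨j, t, ht⟩ := exists_sq_dvd_sub hp hpm
  set e : Qbar := ((1 : Qbar) + p) ^ j * (m : Qbar) ^ p with he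
  have hev : A.valuation e = 1 := by
    have h1 : A.valuation ((1 : Qbar) + p) = 1 := by
      have := A.valuation.map_add_eq_of_lt_left (x := (1 : Qbar)) (y := (p : Qbar))
        (by rw [map_one]; exact hP1)
      rwa [map_one] at this
    rw [he, map_mul, map_pow, map_pow, h1, hmv, one_pow, one_pow, one_mul]
  have he0 : e ≠ 0 := fun h => by rw [h, map_zero] at hev; exact zero_ne_one hev
  have hue : A.valuation (u - e) ≤ A.valuation (p : Qbar) ^ 2 := by
    have h : (m : Qbar) - e = (p : Qbar) ^ 2 * (t : Qbar) := by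
      rw [he]
      exact_mod_cast congrArg (Int.cast : ℤ → Qbar) ht
    rw [show u - e = (u - m) + (p : Qbar) ^ 2 * t by rw [← h]; ring]
    refine A.valuation.map_add_le hm ?_
    rw [map_mul, map_pow]
    exact mul_le_of_le_one_right' ((A.valuation_le_one_iff _).2 (intCast_mem A t))
  have hefix : DFixed A e := fun σ _ => by simp [he]
  obtain ⟨w, hw, hwp⟩ := exists_pow_eq_of_near_one hA hp hp2 (hu.mul hefix.inv) (by
    rw [show u * e⁻¹ - 1 = (u - e) / e by field_simp, map_div₀, hev, div_one]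
    exact hue)
  refine ⟨i, j, (m : Qbar) * w, fun σ hσ => by rw [map_mul, map_intCast, hw σ hσ], ?_⟩
  rw [hxu, mul_pow, hwp, mul_assoc]
  congr 1
  rw [← mul_assoc, ← he, mul_comm u, ← mul_assoc, mul_inv_cancel₀ he0, one_mul]

end Fermat.Agent.TWLocal
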