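import Mathlib.FieldTheory.Fixed
import Mathlib.Algebra.Algebra.ZMod
import Mathlib.Algebra.CharP.Basic
import Fermat.Agent.TWLocal.Basic
import Fermat.Agent.TWLocal.DecompUnits

/-!
# Cocycles of the decomposition group at `p` with cyclotomic coefficients

By Hilbert 90 such a cocycle with values in `μ_p` is a Kummer cocycle, so by the structure of the
units of the decomposition field the space of them has dimension at most three.
-/

set_option autoImplicit false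

open Fermat.Agent.GaloisBasics

namespace Fermat.Agent.TWLocal

variable {p : ℕ} {ζ : Qbar}

open Classical in
/-- The logarithm of a `p`-th root of unity in base `ζ`. -/
noncomputable def rootLog (p : ℕ) (ζ μ : Qbar) : ZMod p :=
  if h : ∃ i : ℕ, ζ ^ i = μ then ((h.choose : ℕ) : ZMod p) else 0

/-- The logarithm of `ζ ^ n` is `n`. -/
theorem rootLog_pow (hp : p.Prime) (hζ : IsPrimitiveRoot ζ p) (n : ℕ) :
    rootLog p ζ (ζ ^ n) = n := by
  have h : ∃ i : ℕ, ζ ^ i = ζ ^ n := ⟨n, rfl⟩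
  rw [rootLog, dif_pos h, ZMod.natCast_eq_natCast_iff']
  refine hζ.pow_inj (Nat.mod_lt _ hp.pos) (Nat.mod_lt _ hp.pos) ?_
  have e : ∀ i, ζ ^ (i % p) = ζ ^ i := fun i => by
    conv_rhs => rw [← Nat.mod_add_div i p, pow_add, pow_mul, hζ.pow_eq_one, one_pow, mul_one]
  rw [e, e, h.choose_spec]

theorem rootLog_mul (hp : p.Prime) (hζ : IsPrimitiveRoot ζ p) {μ ν : Qbar} (hμ : μ ^ p = 1)
    (hν : ν ^ p = 1) : rootLog p ζ (μ * ν) = rootLog p ζ μ + rootLog p ζ ν := by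
  have : NeZero p := ⟨hp.ne_zero⟩
  obtain ⟨a, -, rfl⟩ := hζ.eq_pow_of_pow_eq_one hμ
  obtain ⟨b, -, rfl⟩ := hζ.eq_pow_of_pow_eq_one hν
  rw [← pow_add, rootLog_pow hp hζ, rootLog_pow hp hζ, rootLog_pow hp hζ, Nat.cast_add]

theorem pow_val_rootLog (hp : p.Prime) (hζ : IsPrimitiveRoot ζ p) {μ : Qbar} (hμ : μ ^ p = 1) :
    ζ ^ (rootLog p ζ μ).val = μ := by
  have : NeZero p := ⟨hp.ne_zero⟩
  obtain ⟨a, ha, rfl⟩ := hζ.eq_pow_of_pow_eq_one hμ
  rw [rootLog_pow hp hζ, ZMod.val_natCast_of_lt ha]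

/-- The mod `p` cyclotomic exponent of an automorphism. -/
noncomputable def cyc (p : ℕ) (ζ : Qbar) (σ : GalQ) : ZMod p := rootLog p ζ (σ ζ)

/-- An automorphism raises the `p`-th roots of unity to the power of its cyclotomic exponent. -/
theorem apply_root (hp : p.Prime) (hζ : IsPrimitiveRoot ζ p) (σ : GalQ) {μ : Qbar}
    (hμ : μ ^ p = 1) : σ μ = μ ^ (cyc p ζ σ).val := by
  have : NeZero p := ⟨hp.ne_zero⟩
  obtain ⟨a, -, rfl⟩ := hζ.eq_pow_of_pow_eq_one hμ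
  rw [map_pow, ← pow_mul, mul_comm, pow_mul, cyc,
    pow_val_rootLog hp hζ (by rw [← map_pow, hζ.pow_eq_one, map_one])]

/-- The Kummer cocycle of `x`. -/
noncomputable def kummer (p : ℕ) (ζ x : Qbar) (σ : GalQ) : ZMod p := rootLog p ζ (σ x / x)

theorem div_pow_eq_one {A : ValuationSubring Qbar} {x : Qbar} (hx0 : x ≠ 0)
    (hx : DFixed A (x ^ p)) {σ : GalQ} (hσ : σ ∈ A.decompositionSubgroup ℚ) :
    (σ x / x) ^ p = 1 := by
  rw [div_pow, ← map_pow, hx σ hσ, div_self (pow_ne_zero _ hx0)]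

theorem kummer_mul (hp : p.Prime) (hζ : IsPrimitiveRoot ζ p) {A : ValuationSubring Qbar}
    {x y : Qbar} (hx0 : x ≠ 0) (hx : DFixed A (x ^ p)) (hy0 : y ≠ 0) (hy : DFixed A (y ^ p))
    {σ : GalQ} (hσ : σ ∈ A.decompositionSubgroup ℚ) :
    kummer p ζ (x * y) σ = kummer p ζ x σ + kummer p ζ y σ := by
  rw [kummer, map_mul, mul_div_mul_comm,
    rootLog_mul hp hζ (div_pow_eq_one hx0 hx hσ) (div_pow_eq_one hy0 hy hσ)]
  rfl

theorem kummer_one (hp : p.Prime) (hζ : IsPrimitiveRoot ζ p) (σ : GalQ) :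
    kummer p ζ 1 σ = 0 := by
  rw [kummer, map_one, div_one, ← pow_zero ζ, rootLog_pow hp hζ, Nat.cast_zero]

theorem kummer_pow (hp : p.Prime) (hζ : IsPrimitiveRoot ζ p) {A : ValuationSubring Qbar}
    {x : Qbar} (hx0 : x ≠ 0) (hx : DFixed A (x ^ p))
    {σ : GalQ} (hσ : σ ∈ A.decompositionSubgroup ℚ) (n : ℕ) :
    kummer p ζ (x ^ n) σ = n * kummer p ζ x σ := by
  induction n with
  | zero => rw [pow_zero, kummer_one hp hζ, Nat.cast_zero, zero_mul]
  | succ n ih =>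
    rw [pow_succ, kummer_mul hp hζ (pow_ne_zero _ hx0)
      (by rw [← pow_mul, mul_comm, pow_mul]; exact hx.pow n)
      hx0 hx hσ, ih, Nat.cast_succ, add_mul, one_mul]

theorem kummer_of_fixed (hp : p.Prime) (hζ : IsPrimitiveRoot ζ p) {A : ValuationSubring Qbar}
    {x : Qbar} (hx0 : x ≠ 0) (hx : DFixed A x)
    {σ : GalQ} (hσ : σ ∈ A.decompositionSubgroup ℚ) : kummer p ζ x σ = 0 := by
  rw [kummer, hx σ hσ, div_self hx0, ← pow_zero ζ, rootLog_pow hp hζ, Nat.cast_zero]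

theorem kummer_root (hp : p.Prime) (hζ : IsPrimitiveRoot ζ p) (σ : GalQ) :
    kummer p ζ ζ σ = cyc p ζ σ - 1 := by
  have hz : ζ ≠ 0 := hζ.ne_zero hp.ne_zero
  have h : (σ ζ / ζ) ^ p = 1 := by
    rw [div_pow, ← map_pow, hζ.pow_eq_one, map_one, div_one]
  have h1 := rootLog_mul hp hζ h hζ.pow_eq_one
  rw [div_mul_cancel₀ _ hz] at h1
  have h2 : rootLog p ζ ζ = 1 := by
    have := rootLog_pow hp hζ 1
    rwa [pow_one, Nat.cast_one] at this
  rw [cyc, h1, h2, add_sub_cancel_right]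
  rfl

variable {A : ValuationSubring Qbar}

/-- Hilbert 90: a locally constant cocycle with values in `μ_p` is a Kummer cocycle. -/
theorem exists_kummer_eq (hp : p.Prime) (hζ : IsPrimitiveRoot ζ p)
    (g : ↥(A.decompositionSubgroup ℚ) → ZMod p)
    (hg : ∀ σ τ : ↥(A.decompositionSubgroup ℚ), g (σ * τ) = g σ + cyc p ζ σ * g τ)
    (hlev : HasLevel (A.decompositionSubgroup ℚ) g) :
    ∃ β : Qbar, β ≠ 0 ∧ DFixed A (β ^ p) ∧
      ∀ σ : ↥(A.decompositionSubgroup ℚ), g σ = kummer p ζ β σ := by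
  classical
  have : NeZero p := ⟨hp.ne_zero⟩
  obtain ⟨F, hF, hgF⟩ := hlev
  let rs : GalQ → (F →ₐ[ℚ] Qbar) := fun σ =>
    ((σ : Qbar ≃+* Qbar).toRingHom.comp (algebraMap F Qbar)).toRatAlgHom
  let act : GalQ → (F →ₐ[ℚ] Qbar) → (F →ₐ[ℚ] Qbar) := fun σ h =>
    ((σ : Qbar ≃+* Qbar).toRingHom.comp (h : F →+* Qbar)).toRatAlgHom
  have hact : ∀ σ h x, act σ h x = σ (h x) := fun _ _ _ => rfl
  have hrs : ∀ σ (x : F), rs σ x = σ x := fun _ _ => rfl
  have hwell : ∀ σ τ : ↥(A.decompositionSubgroup ℚ),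
      (∀ x : F, (σ : GalQ) x = (τ : GalQ) x) → g σ = g τ := fun σ τ h => by
    have h0 : g (σ⁻¹ * τ) = 0 := hgF _ fun x hx => by
      rw [Subgroup.coe_mul, Subgroup.coe_inv, AlgEquiv.mul_apply, ← h ⟨x, hx⟩]
      exact (σ : GalQ).symm_apply_apply x
    conv_rhs => rw [← mul_inv_cancel_left σ τ, hg, h0, mul_zero, add_zero]
  let c : (F →ₐ[ℚ] Qbar) → Qbar := fun h =>
    if hh : ∃ σ : ↥(A.decompositionSubgroup ℚ), rs σ = h then ζ ^ (g hh.choose).val
    else 0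
  have hc : ∀ σ : ↥(A.decompositionSubgroup ℚ), c (rs σ) = ζ ^ (g σ).val := fun σ => by
    have hh : ∃ τ : ↥(A.decompositionSubgroup ℚ), rs τ = rs σ := ⟨σ, rfl⟩
    simp only [c]
    rw [dif_pos hh, hwell _ σ fun x => by rw [← hrs, ← hrs, hh.choose_spec]]
  have hpowsum : ∀ a b : ZMod p, ζ ^ (a + b).val = ζ ^ a.val * ζ ^ b.val := fun a b => by
    rw [← pow_add, ← pow_val_rootLog hp hζ
      (show (ζ ^ (a.val + b.val)) ^ p = 1 by rw [pow_right_comm, hζ.pow_eq_one, one_pow]),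
      rootLog_pow hp hζ, Nat.cast_add, ZMod.natCast_zmod_val, ZMod.natCast_zmod_val]
  have hpowmul : ∀ a b : ZMod p, ζ ^ (a * b).val = (ζ ^ b.val) ^ a.val := fun a b => by
    rw [← pow_mul, ← pow_val_rootLog hp hζ
      (show (ζ ^ (b.val * a.val)) ^ p = 1 by rw [pow_right_comm, hζ.pow_eq_one, one_pow]),
      rootLog_pow hp hζ, Nat.cast_mul, ZMod.natCast_zmod_val, ZMod.natCast_zmod_val, mul_comm]
  have key : ∀ (σ : ↥(A.decompositionSubgroup ℚ)) (h : F →ₐ[ℚ] Qbar),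
      c (act σ h) = ζ ^ (g σ).val * (σ : GalQ) (c h) := by
    intro σ h
    by_cases hh : ∃ τ : ↥(A.decompositionSubgroup ℚ), rs τ = h
    · obtain ⟨τ, rfl⟩ := hh
      rw [show act σ (rs τ) = rs ((σ * τ : ↥(A.decompositionSubgroup ℚ)) : GalQ) from
          AlgHom.ext fun x => rfl, hc, hc, hg, hpowsum, hpowmul,
        apply_root hp hζ σ (by rw [pow_right_comm, hζ.pow_eq_one, one_pow])]
    · have h2 : ¬ ∃ τ : ↥(A.decompositionSubgroup ℚ), rs τ = act σ h := by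
        rintro ⟨τ, hτ⟩
        refine hh ⟨σ⁻¹ * τ, AlgHom.ext fun x => ?_⟩
        have h3 := congrArg (σ : GalQ).symm (AlgHom.congr_fun hτ x)
        rw [hrs, hact, AlgEquiv.symm_apply_apply] at h3
        rw [hrs, ← h3]
        rfl
      simp only [c]
      rw [dif_neg hh, dif_neg h2, map_zero, mul_zero]
  obtain ⟨x, hx⟩ : ∃ x : F, ∑ h : F →ₐ[ℚ] Qbar, c h * h x ≠ 0 := by
    by_contra! h0
    have hli := Fintype.linearIndependent_iff.1 (linearIndependent_toLinearMap ℚ F Qbar) c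
      (LinearMap.ext fun x => by simpa [smul_eq_mul] using h0 x)
      (rs ((1 : ↥(A.decompositionSubgroup ℚ)) : GalQ))
    rw [hc] at hli
    exact pow_ne_zero _ (hζ.ne_zero hp.ne_zero) hli
  set y := ∑ h : F →ₐ[ℚ] Qbar, c h * h x
  have hy : ∀ σ : ↥(A.decompositionSubgroup ℚ), ζ ^ (g σ).val * (σ : GalQ) y = y := fun σ => by
    rw [map_sum, Finset.mul_sum]
    let e : (F →ₐ[ℚ] Qbar) ≃ (F →ₐ[ℚ] Qbar) :=
      { toFun := act σ
        invFun := act (σ : GalQ).symm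
        left_inv := fun h => AlgHom.ext fun z => (σ : GalQ).symm_apply_apply (h z)
        right_inv := fun h => AlgHom.ext fun z => (σ : GalQ).apply_symm_apply (h z) }
    refine Fintype.sum_equiv e _ (fun h => c h * h x) fun h => ?_
    show ζ ^ (g σ).val * (σ : GalQ) (c h * h x) = c (act σ h) * (σ : GalQ) (h x)
    rw [key, map_mul, mul_assoc]
  have hβ : ∀ σ : ↥(A.decompositionSubgroup ℚ), (σ : GalQ) y⁻¹ / y⁻¹ = ζ ^ (g σ).val := fun σ => by
    have h := hy σ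
    have : (σ : GalQ) y ≠ 0 := (map_ne_zero _).2 hx
    rw [map_inv₀, inv_div_inv, div_eq_iff this, h]
  refine ⟨y⁻¹, inv_ne_zero hx, fun σ hσ => ?_, fun σ => ?_⟩
  · have h := congrArg (· ^ p) (hβ ⟨σ, hσ⟩)
    simp only [div_pow] at h
    rw [pow_right_comm, hζ.pow_eq_one, one_pow, div_eq_one_iff_eq (pow_ne_zero _ (inv_ne_zero hx))]
      at h
    rw [map_pow]
    exact h
  · rw [kummer, hβ, rootLog_pow hp hζ, ZMod.natCast_zmod_val]

/-- Every cocycle with values in `μ_p` is a combination of three fixed ones. -/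
theorem exists_combination (hA : A.LiesOverPrime p) (hp : p.Prime) (hp2 : p ≠ 2)
    (hζ : IsPrimitiveRoot ζ p) {P₀ E₀ : Qbar} (hP₀ : P₀ ^ p = (p : Qbar))
    (hE₀ : E₀ ^ p = (1 : Qbar) + p) (g : ↥(A.decompositionSubgroup ℚ) → ZMod p)
    (hg : ∀ σ τ : ↥(A.decompositionSubgroup ℚ), g (σ * τ) = g σ + cyc p ζ σ * g τ)
    (hlev : HasLevel (A.decompositionSubgroup ℚ) g) :
    ∃ a b c : ZMod p, ∀ σ : ↥(A.decompositionSubgroup ℚ),
      g σ = a * kummer p ζ P₀ σ + b * kummer p ζ E₀ σ + c * (cyc p ζ σ - 1) := by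
  have : NeZero p := ⟨hp.ne_zero⟩
  obtain ⟨β, hβ0, hβ, hgβ⟩ := exists_kummer_eq hp hζ g hg hlev
  obtain ⟨i, j, w, hw, hβw⟩ := exists_eq_mul_pow hA hp hp2 hβ (pow_ne_zero _ hβ0)
  have hpne : (p : Qbar) ≠ 0 := Nat.cast_ne_zero.2 hp.ne_zero
  have hE1 : (1 : Qbar) + p ≠ 0 := by exact_mod_cast (by omega : (1 + p : ℕ) ≠ 0)
  have hP00 : P₀ ≠ 0 := fun h => by rw [h, zero_pow hp.ne_zero] at hP₀; exact hpne hP₀.symm
  have hE00 : E₀ ≠ 0 := fun h => by rw [h, zero_pow hp.ne_zero] at hE₀; exact hE1 hE₀.symm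
  have hP₀f : DFixed A (P₀ ^ p) := hP₀ ▸ DFixed.natCast A p
  have hE₀f : DFixed A (E₀ ^ p) := by
    rw [hE₀, show (1 : Qbar) + p = ((1 + p : ℕ) : Qbar) by push_cast; rfl]
    exact DFixed.natCast A _
  obtain ⟨n, hn⟩ : ∃ n : ℕ, i % (p : ℤ) = n :=
    ⟨(i % (p : ℤ)).toNat,
      (Int.toNat_of_nonneg (Int.emod_nonneg _ (by exact_mod_cast hp.ne_zero))).symm⟩
  set w' := (p : Qbar) ^ (i / (p : ℤ)) * w
  have hw' : DFixed A w' := ((DFixed.natCast A p).zpow _).mul hw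
  have hi : (p : Qbar) ^ i * w ^ p = (P₀ ^ n) ^ p * w' ^ p := by
    rw [pow_right_comm, hP₀, mul_pow, ← mul_assoc]
    congr 1
    rw [← zpow_natCast ((p : Qbar) ^ (i / (p : ℤ))), ← zpow_mul, ← zpow_natCast (p : Qbar) n,
      ← zpow_add₀ hpne, ← hn, mul_comm (i / (p : ℤ)), Int.emod_add_mul_ediv]
  have hβpow : β ^ p = (P₀ ^ n * E₀ ^ j * w') ^ p := by
    rw [hβw, mul_right_comm, hi]
    simp only [mul_pow]
    rw [pow_right_comm E₀, hE₀]
    ring
  have hw0 : w' ≠ 0 := fun h => by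
    rw [h, mul_zero, zero_pow hp.ne_zero] at hβpow
    exact pow_ne_zero _ hβ0 hβpow
  have hne : P₀ ^ n * E₀ ^ j * w' ≠ 0 :=
    mul_ne_zero (mul_ne_zero (pow_ne_zero _ hP00) (pow_ne_zero _ hE00)) hw0
  obtain ⟨l, -, hl⟩ := hζ.eq_pow_of_pow_eq_one
    (show (β / (P₀ ^ n * E₀ ^ j * w')) ^ p = 1 by
      rw [div_pow, ← hβpow, div_self (pow_ne_zero _ hβ0)])
  have hβeq : β = P₀ ^ n * E₀ ^ j * w' * ζ ^ l := by
    rw [hl, mul_div_cancel₀ _ hne]
  have hPn : DFixed A ((P₀ ^ n) ^ p) := by rw [pow_right_comm]; exact hP₀f.pow n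
  have hEn : DFixed A ((E₀ ^ j) ^ p) := by rw [pow_right_comm]; exact hE₀f.pow j
  have hPE : DFixed A ((P₀ ^ n * E₀ ^ j) ^ p) := by rw [mul_pow]; exact hPn.mul hEn
  have hPEw : DFixed A ((P₀ ^ n * E₀ ^ j * w') ^ p) := by rw [mul_pow]; exact hPE.mul (hw'.pow p)
  have hz : ζ ≠ 0 := hζ.ne_zero hp.ne_zero
  have hzf : DFixed A (ζ ^ p) := by
    rw [hζ.pow_eq_one]; exact fun σ _ => map_one σ
  refine ⟨n, j, l, fun σ => ?_⟩
  rw [hgβ, hβeq,
    kummer_mul hp hζ hne hPEw (pow_ne_zero _ hz) (by rw [pow_right_comm]; exact hzf.pow l) σ.2,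
    kummer_mul hp hζ (mul_ne_zero (pow_ne_zero _ hP00) (pow_ne_zero _ hE00)) hPE
      hw0 (hw'.pow p) σ.2,
    kummer_mul hp hζ (pow_ne_zero _ hP00) hPn (pow_ne_zero _ hE00) hEn σ.2,
    kummer_pow hp hζ hP00 hP₀f σ.2, kummer_pow hp hζ hE00 hE₀f σ.2,
    kummer_pow hp hζ hz hzf σ.2, kummer_of_fixed hp hζ hw0 hw' σ.2, kummer_root hp hζ, add_zero]

variable {k : Type} [Field k]

/-- Locally constant `k`-valued cocycles for a character `ω`. -/
def Z1chi (ω : GalQ → k) (D : Subgroup GalQ) : Submodule k (↥D → k) where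
  carrier := {f | (∀ σ τ : ↥D, f (σ * τ) = f σ + ω σ * f τ) ∧ HasLevel D f}
  zero_mem' := ⟨fun σ τ => by simp, ⊥, inferInstance, fun σ _ => rfl⟩
  add_mem' {a b} ha hb := by
    refine ⟨fun σ τ => ?_, ?_⟩
    · simp only [Pi.add_apply, ha.1 σ τ, hb.1 σ τ]
      ring
    · obtain ⟨F, hF, ha'⟩ := ha.2
      obtain ⟨F', hF', hb'⟩ := hb.2
      exact ⟨F ⊔ F', IntermediateField.finiteDimensional_sup F F', fun σ hσ => by
        rw [Pi.add_apply, ha'.mono le_sup_left σ hσ, hb'.mono le_sup_right σ hσ, add_zero]⟩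
  smul_mem' a c hc := by
    refine ⟨fun σ τ => ?_, ?_⟩
    · simp only [Pi.smul_apply, hc.1 σ τ, smul_eq_mul]
      ring
    · obtain ⟨F, hF, hc'⟩ := hc.2
      exact ⟨F, hF, fun σ hσ => by rw [Pi.smul_apply, hc' σ hσ, smul_zero]⟩

/-- Cocycles for the cyclotomic character form a space of dimension at most three. -/
theorem finrank_Z1chi_le [Finite k] (hA : A.LiesOverPrime p) (hp : p.Prime) (hp2 : p ≠ 2)
    (hpk : (p : k) = 0) (ω : GalQ → k)
    (hω : ∀ (σ : GalQ) (a : ℕ), (∀ μ : Qbar, μ ^ p = 1 → σ μ = μ ^ a) → ω σ = (a : k)) :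
    FiniteDimensional k (Z1chi ω (A.decompositionSubgroup ℚ)) ∧
      Module.finrank k (Z1chi ω (A.decompositionSubgroup ℚ)) ≤ 3 := by
  classical
  have : Fact p.Prime := ⟨hp⟩
  have : NeZero p := ⟨hp.ne_zero⟩
  have : CharP k p := (CharP.charP_iff_prime_eq_zero hp).2 hpk
  have : NeZero (p : Qbar) := ⟨Nat.cast_ne_zero.2 hp.ne_zero⟩
  let : Algebra (ZMod p) k := ZMod.algebra k p
  obtain ⟨ζ, hζ⟩ := HasEnoughRootsOfUnity.exists_primitiveRoot Qbar p
  obtain ⟨P₀, hP₀⟩ := IsAlgClosed.exists_pow_nat_eq (p : Qbar) hp.pos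
  obtain ⟨E₀, hE₀⟩ := IsAlgClosed.exists_pow_nat_eq ((1 : Qbar) + p) hp.pos
  let K : Fin 3 → ↥(A.decompositionSubgroup ℚ) → k :=
    ![fun σ => algebraMap (ZMod p) k (kummer p ζ P₀ σ),
      fun σ => algebraMap (ZMod p) k (kummer p ζ E₀ σ),
      fun σ => algebraMap (ZMod p) k (cyc p ζ σ - 1)]
  have hle : Z1chi ω (A.decompositionSubgroup ℚ) ≤ Submodule.span k (Set.range K) := by
    intro f hf
    let bk := Module.finBasis (ZMod p) k
    have hcoord : ∀ i, ∃ a b c : ZMod p, ∀ σ : ↥(A.decompositionSubgroup ℚ),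
        bk.repr (f σ) i =
          a * kummer p ζ P₀ σ + b * kummer p ζ E₀ σ + c * (cyc p ζ σ - 1) := by
      intro i
      refine exists_combination hA hp hp2 hζ hP₀ hE₀ _ (fun σ τ => ?_) ?_
      · rw [hf.1, hω σ _ fun μ hμ => apply_root hp hζ (σ : GalQ) hμ, map_add, Finsupp.add_apply,
          ← map_natCast (algebraMap (ZMod p) k), ZMod.natCast_zmod_val, ← Algebra.smul_def,
          map_smul, Finsupp.smul_apply, smul_eq_mul]
      · obtain ⟨F, hF, hfF⟩ := hf.2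
        exact ⟨F, hF, fun σ hσ => by dsimp only; rw [hfF σ hσ, map_zero, Finsupp.zero_apply]⟩
    choose a b c habc using hcoord
    rw [Submodule.mem_span_range_iff_exists_fun]
    refine ⟨![∑ i, a i • bk i, ∑ i, b i • bk i, ∑ i, c i • bk i], funext fun σ => ?_⟩
    rw [Fin.sum_univ_three, Pi.add_apply, Pi.add_apply, ← bk.sum_repr (f σ)]
    simp only [K, Matrix.cons_val_zero, Matrix.cons_val_one, Matrix.cons_val, Pi.smul_apply,
      smul_eq_mul, habc, Finset.sum_mul, ← Finset.sum_add_distrib, Algebra.smul_def, map_add,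
      map_mul]
    exact Finset.sum_congr rfl fun i _ => by ring
  have := FiniteDimensional.span_of_finite k (Set.finite_range K)
  exact ⟨Submodule.finiteDimensional_of_le hle, (Submodule.finrank_mono hle).trans
    ((finrank_range_le_card K).trans (by simp))⟩

end Fermat.Agent.TWLocal
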