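import Fermat.Agent.TWLocal.Away
import Fermat.Agent.TWLocal.Kummer
import Fermat.Agent.LocalInertia.Cyclotomic

/-!
# The strict ordinary local condition at `p`

In a frame in which the decomposition group is upper triangular with unramified quotient, the
condition `Lord` consists of the coboundaries and the strictly upper triangular cocycles. It does
not depend on the frame and has dimension at most four.
-/

set_option autoImplicit false

open Fermat.Agent.GaloisBasics

namespace Fermat.Agent.TWLocal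

variable {k : Type} [Field k] {rb : GalQ →* M2 k} {A : ValuationSubring Qbar} {p : ℕ}

/-- The conjugate of `X` by `U`, in the direction opposite to `conjM`. -/
noncomputable def unconjM (U : (M2 k)ˣ) : M2 k →ₗ[k] M2 k := conjM U⁻¹

theorem conjM_unconjM (U : (M2 k)ˣ) (X : M2 k) : conjM U (unconjM U X) = X := by
  simp only [unconjM, conjM_apply, inv_inv, ← mul_assoc, Units.inv_mul, one_mul]
  simp only [mul_assoc, Units.inv_mul, mul_one]

theorem unconjM_conjM (U : (M2 k)ˣ) (X : M2 k) : unconjM U (conjM U X) = X := by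
  simp only [unconjM, conjM_apply, inv_inv, ← mul_assoc, Units.mul_inv, one_mul]
  simp only [mul_assoc, Units.mul_inv, mul_one]

/-- An adapted frame: upper triangular on the decomposition group, unramified quotient, diagonal
characters differing by the cyclotomic character. -/
def OrdFrame (p : ℕ) (rb : GalQ →* M2 k) (A : ValuationSubring Qbar) (U : (M2 k)ˣ) : Prop :=
  (∀ σ ∈ A.decompositionSubgroup ℚ, conjM U (rb σ) 1 0 = 0 ∧
    ∀ a : ℕ, (∀ μ : Qbar, μ ^ p = 1 → σ μ = μ ^ a) →
      conjM U (rb σ) 0 0 = (a : k) * conjM U (rb σ) 1 1) ∧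
  ∀ σ ∈ A.inertiaSubgroupIn ℚ, conjM U (rb σ) 1 1 = 1

theorem det_conjM_rb_ne_zero (U : (M2 k)ˣ) (σ : GalQ) : (conjM U (rb σ)).det ≠ 0 := fun h => by
  have h2 := congrArg Matrix.det (show conjM U (rb σ) * conjM U (rb σ⁻¹) = 1 by
    rw [← conjM_mul, rb_mul_inv, conjM_one])
  rw [Matrix.det_mul, h, zero_mul, Matrix.det_one] at h2
  exact zero_ne_one h2

/-- The diagonal entries of an upper triangular `rb σ` are nonzero. -/
theorem frame_diag_ne_zero {U : (M2 k)ˣ} {σ : GalQ} (h10 : conjM U (rb σ) 1 0 = 0) :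
    conjM U (rb σ) 0 0 ≠ 0 ∧ conjM U (rb σ) 1 1 ≠ 0 := by
  have h := det_conjM_rb_ne_zero (rb := rb) U σ
  rw [Matrix.det_fin_two, h10, mul_zero, sub_zero] at h
  exact mul_ne_zero_iff.1 h

/-- Functions which are strictly upper triangular in the frame. -/
def nilFun (A : ValuationSubring Qbar) (U : (M2 k)ˣ) :
    Submodule k (↥(A.decompositionSubgroup ℚ) → M2 k) where
  carrier := {f | ∀ σ, conjM U (f σ) 0 0 = 0 ∧ conjM U (f σ) 1 0 = 0}
  zero_mem' σ := by simp
  add_mem' {a b} ha hb σ := by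
    simp only [Pi.add_apply, map_add, Matrix.add_apply, (ha σ).1, (ha σ).2, (hb σ).1, (hb σ).2,
      add_zero, and_self]
  smul_mem' a c hc σ := by
    simp only [Pi.smul_apply, map_smul, Matrix.smul_apply, (hc σ).1, (hc σ).2, smul_zero, and_self]

/-- The lower left elementary matrix in the frame. -/
noncomputable def lowMat (U : (M2 k)ˣ) : M2 k := unconjM U !![0, 0; 1, 0]

/-- The strict ordinary condition in a frame. -/
noncomputable def LordU (rb : GalQ →* M2 k) (A : ValuationSubring Qbar) (U : (M2 k)ˣ) :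
    Submodule k (↥(A.decompositionSubgroup ℚ) → M2 k) :=
  Z1 rb (A.decompositionSubgroup ℚ) ⊓
    (nilFun A U ⊔ k ∙ cob rb (A.decompositionSubgroup ℚ) (lowMat U))

theorem cob_mem_nilFun {U : (M2 k)ˣ} (hU : OrdFrame p rb A U) {X : M2 k}
    (hX : conjM U X 1 0 = 0) : cob rb (A.decompositionSubgroup ℚ) X ∈ nilFun A U := by
  intro σ
  obtain ⟨h10, -⟩ := hU.1 σ σ.2
  obtain ⟨h00, h11⟩ := frame_diag_ne_zero h10
  have h := cocycle_adj_eq (rb := rb) U σ X
  rw [cob_apply, map_sub]
  set Y := conjM U (adj rb σ X)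
  have e10 := congrFun (congrFun h 1) 0
  have e00 := congrFun (congrFun h 0) 0
  simp only [Matrix.mul_apply, Fin.sum_univ_two, h10, hX, mul_zero, zero_mul, add_zero] at e10 e00
  have hY10 : Y 1 0 = 0 := (mul_eq_zero.1 e10).resolve_right h00
  refine ⟨?_, by rw [Matrix.sub_apply, hX, hY10, sub_zero]⟩
  rw [Matrix.sub_apply, sub_eq_zero]
  exact mul_right_cancel₀ h00 (by linear_combination -e00)

/-- A coboundary is an upper nilpotent cocycle plus a multiple of the lower coboundary. -/
theorem cob_mem_sup {U : (M2 k)ˣ} (hU : OrdFrame p rb A U) (X : M2 k) :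
    cob rb (A.decompositionSubgroup ℚ) X ∈
      nilFun A U ⊔ k ∙ cob rb (A.decompositionSubgroup ℚ) (lowMat U) := by
  rw [show X = (X - conjM U X 1 0 • lowMat U) + conjM U X 1 0 • lowMat U by abel, map_add,
    map_smul]
  refine Submodule.add_mem_sup (cob_mem_nilFun hU ?_)
    (Submodule.smul_mem _ _ (Submodule.mem_span_singleton_self _))
  simp [lowMat, conjM_unconjM]

/-- Two frames define the same first line. -/
theorem frame_unique (hA : A.LiesOverPrime p) (hp : p.Prime) (hp2 : p ≠ 2)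
    {U U' : (M2 k)ˣ} (hU : OrdFrame p rb A U) (hU' : OrdFrame p rb A U') :
    ((↑U⁻¹ : M2 k) * U') 1 0 = 0 := by
  obtain ⟨σ, hσ, hroot⟩ := LocalInertia.exists_inertia_pow_on_rootsOfUnity hA hp 1 (a := 2)
    ((Nat.coprime_primes Nat.prime_two hp).2 hp2.symm)
  rw [pow_one] at hroot
  obtain ⟨h10, hrel⟩ := hU.1 σ (inertia_le hσ)
  obtain ⟨h10', hrel'⟩ := hU'.1 σ (inertia_le hσ)
  have h11 := hU.2 σ hσ
  have h11' := hU'.2 σ hσ
  have h00' : conjM U' (rb σ) 0 0 = 2 := by rw [hrel' 2 hroot, h11', Nat.cast_ofNat, mul_one]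
  have h : conjM U (rb σ) * ((↑U⁻¹ : M2 k) * U') = ((↑U⁻¹ : M2 k) * U') * conjM U' (rb σ) := by
    simp only [conjM_apply, mul_assoc, Units.mul_inv_cancel_left]
  have e := congrFun (congrFun h 1) 0
  simp only [Matrix.mul_apply (M := conjM U (rb σ)), Matrix.mul_apply (N := conjM U' (rb σ)),
    Fin.sum_univ_two, h10, h11, h10', h00', zero_mul, one_mul, zero_add, mul_zero, add_zero] at e
  linear_combination -e

theorem LordU_le (hA : A.LiesOverPrime p) (hp : p.Prime) (hp2 : p ≠ 2) {U U' : (M2 k)ˣ}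
    (hU : OrdFrame p rb A U) (hU' : OrdFrame p rb A U') : LordU rb A U' ≤ LordU rb A U := by
  refine inf_le_inf_left _ (sup_le ?_ ?_)
  · intro f hf
    refine Submodule.mem_sup_left (fun σ => ?_)
    have hrel := frame_unique hA hp hp2 hU hU'
    set T := (↑U⁻¹ : M2 k) * U' with hT
    have hT0 : T 0 0 ≠ 0 := fun h0 => by
      have h1 := congrArg Matrix.det (show T * ((↑U'⁻¹ : M2 k) * U) = 1 by
        rw [hT, mul_assoc, Units.mul_inv_cancel_left, Units.inv_mul])
      rw [Matrix.det_mul, Matrix.det_fin_two T, h0, hrel, zero_mul, mul_zero, sub_zero, zero_mul,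
        Matrix.det_one] at h1
      exact zero_ne_one h1
    have h : conjM U (f σ) * T = T * conjM U' (f σ) := by
      simp only [hT, conjM_apply, mul_assoc, Units.mul_inv_cancel_left]
    have e0 := congrFun (congrFun h 0) 0
    have e1 := congrFun (congrFun h 1) 0
    simp only [Matrix.mul_apply (M := conjM U (f σ)), Matrix.mul_apply (N := conjM U' (f σ)),
      Fin.sum_univ_two, (hf σ).1, (hf σ).2, hrel, mul_zero, add_zero] at e0 e1
    exact ⟨(mul_eq_zero.1 e0).resolve_right hT0, (mul_eq_zero.1 e1).resolve_right hT0⟩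
  · rw [Submodule.span_singleton_le_iff_mem]
    exact cob_mem_sup hU _

variable (p)

open Classical in
/-- The strict ordinary local condition; the coboundaries if there is no adapted frame. -/
noncomputable def Lord (rb : GalQ →* M2 k) (A : ValuationSubring Qbar) :
    Submodule k (↥(A.decompositionSubgroup ℚ) → M2 k) :=
  if h : ∃ U, OrdFrame p rb A U then LordU rb A h.choose
  else LinearMap.range (cob rb (A.decompositionSubgroup ℚ))

variable {p}

/-- `Lord` is computed in any ordinary frame. -/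
theorem Lord_eq (hA : A.LiesOverPrime p) (hp : p.Prime) (hp2 : p ≠ 2) {U : (M2 k)ˣ}
    (hU : OrdFrame p rb A U) : Lord p rb A = LordU rb A U := by
  rw [Lord, dif_pos ⟨U, hU⟩]
  exact le_antisymm (LordU_le hA hp hp2 hU (Exists.choose_spec ⟨U, hU⟩))
    (LordU_le hA hp hp2 (Exists.choose_spec ⟨U, hU⟩) hU)

/-- The coboundaries have dimension at most three. -/
theorem finrank_range_cob_le :
    FiniteDimensional k (LinearMap.range (cob rb (A.decompositionSubgroup ℚ))) ∧
      Module.finrank k (LinearMap.range (cob rb (A.decompositionSubgroup ℚ))) ≤ 3 := by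
  refine ⟨inferInstance, ?_⟩
  have h1 : (1 : M2 k) ∈ LinearMap.ker (cob rb (A.decompositionSubgroup ℚ)) := by
    rw [LinearMap.mem_ker]
    funext σ
    rw [cob_apply, adj_apply, mul_one, rb_mul_inv, sub_self, Pi.zero_apply]
  have h2 : 0 < Module.finrank k (LinearMap.ker (cob rb (A.decompositionSubgroup ℚ))) :=
    Module.finrank_pos_iff_exists_ne_zero.2 ⟨⟨1, h1⟩, fun h => one_ne_zero (congrArg Subtype.val h)⟩
  have h3 := LinearMap.finrank_range_add_finrank_ker (cob rb (A.decompositionSubgroup ℚ))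
  have h4 : Module.finrank k (M2 k) = 4 := by simp [Module.finrank_matrix]
  omega

/-- The strict ordinary classes form a space of dimension at most four. -/
theorem finrank_Lord_le [Finite k] (hA : A.LiesOverPrime p) (hp : p.Prime) (hp2 : p ≠ 2)
    (hpk : (p : k) = 0) (hrb : ∃ F : IntermediateField ℚ Qbar, FiniteDimensional ℚ F ∧
      ∀ σ : GalQ, (∀ x ∈ F, σ x = x) → rb σ = 1) :
    FiniteDimensional k (Lord p rb A) ∧ Module.finrank k (Lord p rb A) ≤ 4 := by
  by_cases hex : ∃ U, OrdFrame p rb A U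
  swap
  · rw [Lord, dif_neg hex]
    exact ⟨finrank_range_cob_le.1, finrank_range_cob_le.2.trans (by norm_num)⟩
  obtain ⟨U, hU⟩ := hex
  rw [Lord_eq hA hp hp2 hU]
  set D := A.decompositionSubgroup ℚ
  have : NeZero p := ⟨hp.ne_zero⟩
  have : NeZero (p : Qbar) := ⟨Nat.cast_ne_zero.2 hp.ne_zero⟩
  obtain ⟨ζ, hζ⟩ := HasEnoughRootsOfUnity.exists_primitiveRoot Qbar p
  have : Fact p.Prime := ⟨hp⟩
  have : CharP k p := (CharP.charP_iff_prime_eq_zero hp).2 hpk
  let ω : GalQ → k := fun σ => ((cyc p ζ σ).val : k)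
  have hω : ∀ (σ : GalQ) (a : ℕ), (∀ μ : Qbar, μ ^ p = 1 → σ μ = μ ^ a) → ω σ = (a : k) := by
    intro σ a ha
    have h : cyc p ζ σ = a := by rw [cyc, ha ζ hζ.pow_eq_one, rootLog_pow hp hζ]
    simp only [ω, h, ZMod.val_natCast, CharP.natCast_eq_natCast' k p (Nat.mod_modEq a p)]
  let Φ : (↥D → k) →ₗ[k] (↥D → M2 k) :=
    { toFun := fun x σ => unconjM U (x σ • !![0, 1; 0, 0])
      map_add' := fun x y => by funext σ; simp only [Pi.add_apply, add_smul, map_add]
      map_smul' := fun a x => by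
        funext σ
        simp only [Pi.smul_apply, smul_assoc, map_smul, RingHom.id_apply] }
  set Y : Submodule k (↥D → M2 k) :=
    (Z1chi ω D).map Φ ⊔ k ∙ cob rb D (lowMat U) with hYdef
  have hle : LordU rb A U ≤ Y := by
    rintro c ⟨hc, hcs⟩
    obtain ⟨n, hn, s, hs, rfl⟩ := Submodule.mem_sup.1 hcs
    obtain ⟨t, rfl⟩ := Submodule.mem_span_singleton.1 hs
    have hnZ : n ∈ Z1 rb D := by
      have h := sub_mem hc (Submodule.smul_mem _ t (cob_mem_Z1 (D := D) hrb (lowMat U)))
      rwa [add_sub_cancel_right] at h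
    have hdiag : ∀ σ, conjM U (n σ) 1 1 = 0 := fun σ => by
      have h := trace_conjM U (n σ)
      rw [hnZ.2.1, Matrix.trace_fin_two, (hn σ).1, zero_add] at h
      exact h
    refine Submodule.add_mem_sup ⟨fun σ => conjM U (n σ) 0 1, ⟨fun σ τ => ?_, ?_⟩, ?_⟩
      (Submodule.smul_mem _ _ (Submodule.mem_span_singleton_self _))
    · obtain ⟨h10, hrel⟩ := hU.1 σ σ.2
      obtain ⟨-, h11⟩ := frame_diag_ne_zero h10
      have hY : conjM U (adj rb σ (n τ)) = conjM U (n (σ * τ)) - conjM U (n σ) := by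
        rw [hnZ.1, map_add, add_sub_cancel_left]
      have hY00 : conjM U (adj rb σ (n τ)) 0 0 = 0 := by
        rw [hY, Matrix.sub_apply, (hn _).1, (hn _).1, sub_zero]
      have h := congrFun (congrFun (cocycle_adj_eq (rb := rb) U σ (n τ)) 0) 1
      simp only [Matrix.mul_apply, Fin.sum_univ_two, hY00, hdiag, zero_mul, mul_zero,
        zero_add, add_zero] at h
      rw [hrel _ (fun μ hμ => apply_root hp hζ (σ : GalQ) hμ)] at h
      show conjM U (n (σ * τ)) 0 1 = conjM U (n σ) 0 1 + ω σ * conjM U (n τ) 0 1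
      rw [hnZ.1, map_add, Matrix.add_apply]
      congr 1
      exact mul_right_cancel₀ h11 (h.trans (by ring))
    · obtain ⟨F, hF, hnF⟩ := hnZ.2.2
      refine ⟨F, hF, fun σ hσ => ?_⟩
      show conjM U (n σ) 0 1 = 0
      rw [hnF σ hσ, map_zero]
      rfl
    · funext σ
      show unconjM U (conjM U (n σ) 0 1 • !![0, 1; 0, 0]) = n σ
      conv_rhs => rw [← unconjM_conjM U (n σ)]
      congr 1
      ext i j
      fin_cases i <;> fin_cases j <;> simp [hdiag, (hn σ).1, (hn σ).2]
  obtain ⟨hfin, hdim⟩ := finrank_Z1chi_le hA hp hp2 hpk ω hω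
  have := hfin
  have h1 : Module.finrank k ↥((Z1chi ω D).map Φ) ≤ 3 := (Submodule.finrank_map_le _ _).trans hdim
  have h2 : Module.finrank k ↥(k ∙ cob rb D (lowMat U)) ≤ 1 :=
    (finrank_span_le_card _).trans (by simp)
  refine ⟨Submodule.finiteDimensional_of_le hle, (Submodule.finrank_mono hle).trans ?_⟩
  exact le_trans (Submodule.finrank_add_le_finrank_add_finrank _ _) (add_le_add h1 h2)

end Fermat.Agent.TWLocal
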