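import Fermat.Agent.TWLocal.Ordinary
import Fermat.Agent.TWAssembly.Selmer
import Fermat.Agent.GaloisBasics.Unramified
import Fermat.Prelude.Def_GaloisRep_StrictOrdinary
import Mathlib.LinearAlgebra.Matrix.Basis
import Mathlib.LinearAlgebra.Matrix.Charpoly.Coeff

/-!
# Tangent cocycles satisfy the local conditions

The cocycle of a tangent vector of a deformation that is strict ordinary at `p`, resp. unipotent on
inertia at a prime `q`, lies in `Lord`, resp. in `Lunip`.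
-/

set_option autoImplicit false

open IsLocalRing Module Polynomial
open Fermat.Agent.GaloisBasics

namespace Fermat.Agent.TWLocal

section Core

variable {k R : Type} [Field k] [CommRing R]

theorem map_mul_der (res : R →+* k) (d : R →+ k)
    (hd : ∀ x y, d (x * y) = res x * d y + res y * d x) (X Y : M2 R) :
    (X * Y).map d = X.map d * Y.map res + X.map res * Y.map d := by
  ext i j
  simp only [Matrix.map_apply, Matrix.mul_apply, Matrix.add_apply, map_sum,
    ← Finset.sum_add_distrib]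
  refine Finset.sum_congr rfl fun l _ => ?_
  rw [hd]
  ring

/-- An adapted frame of a lift gives a frame of the reduction and the shape of the cocycle. -/
theorem ord_core {A : ValuationSubring Qbar} {p : ℕ} (res : R →+* k) (d : R →+ k)
    (hd : ∀ x y, d (x * y) = res x * d y + res y * d x) (M : GalQ →* M2 R) (W : (M2 R)ˣ)
    (rb : GalQ →* M2 k) (V : (M2 k)ˣ)
    (hV : ∀ σ, (V : M2 k) * (M σ).map res = rb σ * V)
    (c : ↥(A.decompositionSubgroup ℚ) → M2 k) (hc : c ∈ Z1 rb (A.decompositionSubgroup ℚ))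
    (hcM : ∀ σ, c σ * rb σ = (V : M2 k) * (M σ).map d * (↑V⁻¹ : M2 k))
    (hp2 : (2 : k) ≠ 0)
    (h10 : ∀ σ ∈ A.decompositionSubgroup ℚ, ((↑W⁻¹ : M2 R) * M σ * W) 1 0 = 0)
    (hrel : ∀ σ ∈ A.decompositionSubgroup ℚ, ∀ a : ℕ,
      (∀ μ : Qbar, μ ^ p = 1 → σ μ = μ ^ a) →
        res (((↑W⁻¹ : M2 R) * M σ * W) 0 0) = (a : k) * res (((↑W⁻¹ : M2 R) * M σ * W) 1 1) ∧
        d (((↑W⁻¹ : M2 R) * M σ * W) 0 0) = (a : k) * d (((↑W⁻¹ : M2 R) * M σ * W) 1 1))
    (hI : ∀ σ ∈ A.inertiaSubgroupIn ℚ, ((↑W⁻¹ : M2 R) * M σ * W) 1 1 = 1)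
    (hexp : ∀ σ : GalQ, ∃ a : ℕ, ∀ μ : Qbar, μ ^ p = 1 → σ μ = μ ^ a) :
    ∃ U : (M2 k)ˣ, OrdFrame p rb A U ∧ c ∈ LordU rb A U := by
  let Wb : (M2 k)ˣ := Units.map (res.mapMatrix (m := Fin 2)).toMonoidHom W
  have hWb : (Wb : M2 k) = (W : M2 R).map res := rfl
  have hWbi : (↑Wb⁻¹ : M2 k) = (↑W⁻¹ : M2 R).map res := rfl
  have hN : ∀ σ, conjM (V * Wb) (rb σ) = ((↑W⁻¹ : M2 R) * M σ * W).map res := by
    intro σ
    have h : rb σ = (V : M2 k) * (M σ).map res * (↑V⁻¹ : M2 k) := by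
      rw [hV, mul_assoc, Units.mul_inv, mul_one]
    rw [Matrix.map_mul, Matrix.map_mul, ← hWb, ← hWbi, conjM_apply, h]
    simp only [mul_inv_rev, Units.val_mul, mul_assoc, Units.inv_mul_cancel_left]
  have hU : OrdFrame p rb A (V * Wb) := by
    refine ⟨fun σ hσ => ⟨?_, fun a ha => ?_⟩, fun σ hσ => ?_⟩
    · rw [hN, Matrix.map_apply, h10 σ hσ, map_zero]
    · rw [hN, Matrix.map_apply, Matrix.map_apply, (hrel σ hσ a ha).1]
    · rw [hN, Matrix.map_apply, hI σ hσ, map_one]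
  refine ⟨V * Wb, hU, hc, ?_⟩
  -- the twist by the derivative of the change of basis
  set X0 : M2 k := (W : M2 R).map d * (↑Wb⁻¹ : M2 k) with hX0
  set X : M2 k := (V : M2 k) * X0 * (↑V⁻¹ : M2 k) with hX
  have hsplit : c = (c - cob rb (A.decompositionSubgroup ℚ) X) +
      cob rb (A.decompositionSubgroup ℚ) X := (sub_add_cancel _ _).symm
  rw [hsplit]
  refine add_mem (Submodule.mem_sup_left (S := nilFun A (V * Wb)) ?_) (cob_mem_sup hU X)
  intro σ
  set Y := conjM (V * Wb) ((c - cob rb (A.decompositionSubgroup ℚ) X) σ) with hY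
  have hYN : Y * ((↑W⁻¹ : M2 R) * M σ * W).map res = ((↑W⁻¹ : M2 R) * M σ * W).map d := by
    have hMW : M σ * (W : M2 R) = (W : M2 R) * ((↑W⁻¹ : M2 R) * M σ * W) := by
      rw [← mul_assoc, ← mul_assoc, Units.mul_inv, one_mul]
    have h1 := congrArg (fun Z : M2 R => Z.map d) hMW
    rw [map_mul_der res d hd (M σ) (W : M2 R),
      map_mul_der res d hd (W : M2 R) ((↑W⁻¹ : M2 R) * M σ * W)] at h1
    have h2 : Y * ((↑W⁻¹ : M2 R) * M σ * W).map res =
        conjM (V * Wb) (c σ * rb σ - (X * rb σ - rb σ * X)) := by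
      rw [hY, ← hN, ← conjM_mul, Pi.sub_apply, cob_apply, sub_mul, sub_mul, adj_mul_self]
    have hVM : rb σ * (V : M2 k) = (V : M2 k) * (M σ).map res := (hV σ).symm
    rw [h2, hcM, hX, ← mul_assoc (rb σ), ← mul_assoc (rb σ), hVM,
      show ((V : M2 k) * X0 * (↑V⁻¹ : M2 k)) * rb σ =
          (V : M2 k) * X0 * (M σ).map res * (↑V⁻¹ : M2 k) by
        rw [show rb σ = (V : M2 k) * (M σ).map res * (↑V⁻¹ : M2 k) by
          rw [hV, mul_assoc, Units.mul_inv, mul_one]]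
        simp only [mul_assoc, Units.inv_mul_cancel_left]]
    have h3 : (M σ).map d * (Wb : M2 k) + (M σ).map res * X0 * (Wb : M2 k) -
        X0 * (M σ).map res * (Wb : M2 k) =
        (Wb : M2 k) * ((↑W⁻¹ : M2 R) * M σ * W).map d := by
      have e : X0 * (M σ).map res * (Wb : M2 k) =
          (W : M2 R).map d * ((↑W⁻¹ : M2 R) * M σ * W).map res := by
        rw [hX0, Matrix.map_mul, Matrix.map_mul, ← hWb, ← hWbi]
        simp only [mul_assoc]
      have e' : X0 * (Wb : M2 k) = (W : M2 R).map d := by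
        rw [hX0, mul_assoc, Units.inv_mul, mul_one]
      rw [e, mul_assoc ((M σ).map res), e', hWb, h1, add_sub_cancel_left]
    have h4 := congrArg (fun Z : M2 k => (↑Wb⁻¹ : M2 k) * Z) h3
    simp only [Units.inv_mul_cancel_left] at h4
    rw [← h4, conjM_apply, mul_inv_rev, Units.val_mul, Units.val_mul]
    simp only [mul_sub, sub_mul, mul_add, mul_assoc, Units.inv_mul_cancel_left]
    abel
  have hYt : Y 0 0 + Y 1 1 = 0 := by
    rw [← Matrix.trace_fin_two, hY, trace_conjM, Pi.sub_apply, Matrix.trace_sub, hc.2.1,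
      cob_apply, Matrix.trace_sub, trace_adj, sub_self, sub_zero]
  obtain ⟨a, ha⟩ := hexp σ
  obtain ⟨hU10, hUrel⟩ := hU.1 σ σ.2
  obtain ⟨g00, g11⟩ := frame_diag_ne_zero hU10
  rw [hN, Matrix.map_apply] at g00 g11
  have e10 := congrFun (congrFun hYN 1) 0
  have e00 := congrFun (congrFun hYN 0) 0
  have e11 := congrFun (congrFun hYN 1) 1
  simp only [Matrix.mul_apply (M := Y), Fin.sum_univ_two, Matrix.map_apply, h10 σ σ.2, map_zero,
    mul_zero, add_zero] at e10 e00 e11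
  have hY10 : Y 1 0 = 0 := (mul_eq_zero.1 e10).resolve_right g00
  rw [hY10, zero_mul, zero_add] at e11
  refine ⟨?_, hY10⟩
  rw [(hrel σ σ.2 a ha).1, (hrel σ σ.2 a ha).2] at e00
  rw [(hrel σ σ.2 a ha).1] at g00
  have ha0 : (a : k) ≠ 0 := left_ne_zero_of_mul g00
  have h5 : Y 0 0 = Y 1 1 := mul_right_cancel₀ g00 (by linear_combination e00 - (a : k) * e11)
  rw [← h5, ← two_mul] at hYt
  exact (mul_eq_zero.1 hYt).resolve_left hp2

end Core

section Deformation

open Fermat.Agent.TangentBound Fermat.Agent.TWAssembly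

variable {𝒪 : Type} [CommRing 𝒪] [IsDomain 𝒪] [IsDiscreteValuationRing 𝒪]
  [IsAdicComplete (maximalIdeal 𝒪) 𝒪]
  {ρbar : ResidualGaloisRep (ResidueField 𝒪)}
  {𝒟 : ∀ ⦃A : Type⦄ [CommRing A] [IsLocalRing A] [Algebra 𝒪 A], GaloisRepAdic A → Prop}
  (DQ : GaloisRep.DeformationRingData 𝒪 ρbar 𝒟)
  (rb : GQ →* Mat2 (ResidueField 𝒪)) (V : (Mat2 (ResidueField 𝒪))ˣ) {p q : ℕ}
  {P : ValuationSubring (AlgebraicClosure ℚ)}

theorem resPlace_mem_Z1 (hV : ∀ σ, (V : Mat2 (ResidueField 𝒪)) * barMat DQ σ = rb σ * V)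
    (hp : p.Prime) (hdet : DQ.ρ.DetIsCyclotomic p) (d : derSpace DQ.residue_surjective) :
    resPlace P (conjMap V (tangentCocycle DQ d)) ∈ Z1 rb (P.decompositionSubgroup ℚ) := by
  have : Fact p.Prime := ⟨hp⟩
  obtain ⟨h1, h2, F, hF, h3⟩ := conjMap_tangentCocycle_mem_adCocycles DQ rb V hV p hdet d
  refine ⟨fun σ τ => h1 σ τ, fun σ => h2 σ, F, hF, fun σ hσ => ?_⟩
  have h0 : conjMap V (tangentCocycle DQ d) 1 = 0 := by
    have h := h1 1 1
    rw [one_mul, map_one, one_mul, inv_one, map_one, mul_one] at h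
    exact left_eq_add.1 h
  have h := h3 1 σ ((IntermediateField.mem_fixingSubgroup_iff F _).2 hσ)
  rw [one_mul, h0] at h
  exact h

/-- The tangent cocycle times `rb` is the tangent vector of the universal matrices, in the frame
`V`. -/
theorem conjMap_mul_rb (hV : ∀ σ, (V : Mat2 (ResidueField 𝒪)) * barMat DQ σ = rb σ * V)
    (d : derSpace DQ.residue_surjective) (σ : GQ) :
    conjMap V (tangentCocycle DQ d) σ * rb σ =
      (V : Mat2 (ResidueField 𝒪)) * (univMat DQ σ).map (d : DQ.R →ₗ[𝒪] ResidueField 𝒪) *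
        (↑V⁻¹ : Mat2 (ResidueField 𝒪)) := by
  rw [show rb σ = (V : Mat2 (ResidueField 𝒪)) * barMat DQ σ * (↑V⁻¹ : Mat2 (ResidueField 𝒪)) by
    rw [hV, mul_assoc, Units.mul_inv, mul_one], conjMap_apply, map_derivation_univMat]
  simp only [mul_assoc, Units.inv_mul_cancel_left]

/-- Strict ordinary deformations have strict ordinary tangent cocycles. -/
theorem resPlace_mem_Lord (hV : ∀ σ, (V : Mat2 (ResidueField 𝒪)) * barMat DQ σ = rb σ * V)
    (hp : p.Prime) (hp2 : p ≠ 2) (hdet : DQ.ρ.DetIsCyclotomic p)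
    (hord : DQ.ρ.IsStrictOrdinaryAt p) (hP : P.LiesOverPrime p)
    (d : derSpace DQ.residue_surjective) :
    resPlace P (conjMap V (tangentCocycle DQ d)) ∈ Lord p rb P := by
  have : Fact p.Prime := ⟨hp⟩
  set res : DQ.R →+* ResidueField 𝒪 := (resK DQ.residue_surjective : DQ.R →+* ResidueField 𝒪)
  have hresp : res (p : DQ.R) = 0 := (resK_eq_zero_iff DQ.residue_surjective _).2 hdet.1
  have hpk : (p : ResidueField 𝒪) = 0 := by rw [← map_natCast res]; exact hresp
  have h2k : (2 : ResidueField 𝒪) ≠ 0 := by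
    intro h2
    have : CharP (ResidueField 𝒪) p := (CharP.charP_iff_prime_eq_zero hp).2 hpk
    have h : p ∣ 2 := (CharP.cast_eq_zero_iff (ResidueField 𝒪) p 2).1 (by exact_mod_cast h2)
    exact hp2 ((Nat.prime_dvd_prime_iff_eq hp Nat.prime_two).1 h)
  have hdnat : ∀ m : ℕ, (d : DQ.R →ₗ[𝒪] ResidueField 𝒪) (m : DQ.R) = 0 := fun m => by
    rw [← map_natCast (algebraMap 𝒪 DQ.R)]
    exact derSpace_apply_algebraMap _ d _
  obtain ⟨L, ⟨b, hb⟩, hD, hI, hs⟩ := hord.2 P hP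
  set u := univBasis DQ
  let W : (Mat2 DQ.R)ˣ := ⟨u.toMatrix b, b.toMatrix u, Module.Basis.toMatrix_mul_toMatrix_flip u b,
    Module.Basis.toMatrix_mul_toMatrix_flip b u⟩
  have hN : ∀ σ, (↑W⁻¹ : Mat2 DQ.R) * univMat DQ σ * W =
      LinearMap.toMatrix b b (DQ.ρ.ρ σ) := fun σ =>
    basis_toMatrix_mul_linearMap_toMatrix_mul_basis_toMatrix b u b u (DQ.ρ.ρ σ)
  have hb0 : b 0 ∈ L := hb ▸ Submodule.mem_span_singleton_self _
  have hrepr : ∀ w ∈ L, b.repr w 1 = 0 := fun w hw => by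
    rw [hb, Submodule.mem_span_singleton] at hw
    obtain ⟨t, rfl⟩ := hw
    simp
  have hexp : ∀ σ : GalQ, ∃ a : ℕ, ∀ μ : Qbar, μ ^ p = 1 → σ μ = μ ^ a := fun σ => by
    obtain ⟨a, ha⟩ := exists_rootsOfUnity_exponent p σ
    exact ⟨a, fun μ hμ => ha μ (by rwa [pow_one])⟩
  obtain ⟨U, hU, hmem⟩ := ord_core (A := P) (p := p) res
    (d : DQ.R →ₗ[𝒪] ResidueField 𝒪).toAddMonoidHom d.2 (univMat DQ) W rb V hV _
    (resPlace_mem_Z1 DQ rb V hV hp hdet d) (fun σ => conjMap_mul_rb DQ rb V hV d σ) h2k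
    (fun σ hσ => by
      rw [hN, LinearMap.toMatrix_apply]
      exact hrepr _ (hD σ hσ _ hb0))
    (fun σ hσ a ha => by
      obtain ⟨x, z, hx, hz, hxz⟩ := hs σ hσ
      have hn00 : LinearMap.toMatrix b b (DQ.ρ.ρ σ) 0 0 = x := by
        rw [LinearMap.toMatrix_apply, hx _ hb0]
        simp
      have hn11 : LinearMap.toMatrix b b (DQ.ρ.ρ σ) 1 1 = z := by
        have h := hrepr _ (hz (b 1))
        rw [map_sub, Finsupp.sub_apply, sub_eq_zero] at h
        rw [LinearMap.toMatrix_apply, h]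
        simp
      obtain ⟨t, ht⟩ := Ideal.mem_span_singleton'.1 (hxz 1 a (by simpa using ha))
      rw [pow_one] at ht
      rw [hN, hn00, hn11, show x = (a : DQ.R) * z + t * (p : DQ.R) by linear_combination -ht]
      constructor
      · rw [map_add, map_mul, map_mul, hresp, mul_zero, add_zero, map_natCast]
      · show (d : DQ.R →ₗ[𝒪] ResidueField 𝒪) _ =
          (a : ResidueField 𝒪) * (d : DQ.R →ₗ[𝒪] ResidueField 𝒪) z
        rw [map_add, d.2, d.2 t, hdnat, hdnat, mul_zero, add_zero, map_natCast,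
          show resK DQ.residue_surjective (p : DQ.R) = 0 from hresp]
        simp)
    (fun σ hσ => by
      have h := hrepr _ (hI σ hσ (b 1))
      rw [map_sub, Finsupp.sub_apply, sub_eq_zero] at h
      rw [hN, LinearMap.toMatrix_apply, h]
      simp)
    hexp
  rw [Lord_eq hP hp hp2 hU]
  exact hmem

/-- Inertia at a prime with unipotent deformations acts on `rb` unipotently. -/
theorem det_trace_rb_of_unipotent
    (hV : ∀ σ, (V : Mat2 (ResidueField 𝒪)) * barMat DQ σ = rb σ * V)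
    (hunip : DQ.ρ.IsUnipotentOnInertiaAt q) (hP : P.LiesOverPrime q) {σ : GQ}
    (hσ : σ ∈ P.inertiaSubgroupIn ℚ) :
    ((univMat DQ σ).det = 1 ∧ (univMat DQ σ).trace = 2) ∧
      (rb σ).det = 1 ∧ (rb σ).trace = 2 := by
  nontriviality DQ.R
  have hc : (univMat DQ σ).charpoly = (X - 1) ^ 2 :=
    (LinearMap.charpoly_toMatrix _ _).trans (hunip P hP σ hσ)
  have h1 : (univMat DQ σ).det = 1 ∧ (univMat DQ σ).trace = 2 := by
    rw [Matrix.det_eq_sign_charpoly_coeff, Matrix.trace_eq_neg_charpoly_coeff, hc,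
      Fintype.card_fin, sub_sq]
    constructor <;> simp [Polynomial.coeff_one, Polynomial.coeff_X_pow]
  refine ⟨h1, ?_⟩
  set res : DQ.R →+* ResidueField 𝒪 := (resK DQ.residue_surjective : DQ.R →+* ResidueField 𝒪)
  rw [show rb σ = (V : Mat2 (ResidueField 𝒪)) * barMat DQ σ * (↑V⁻¹ : Mat2 (ResidueField 𝒪)) by
    rw [hV, mul_assoc, Units.mul_inv, mul_one]]
  refine ⟨?_, ?_⟩
  · rw [Matrix.det_units_conj, barMat_apply,
      show (univMat DQ σ).map (resK DQ.residue_surjective) = res.mapMatrix (univMat DQ σ) from rfl,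
      ← RingHom.map_det, h1.1, map_one]
  · rw [Matrix.trace_mul_cycle, Units.inv_mul, one_mul, barMat_apply,
      show (univMat DQ σ).map (resK DQ.residue_surjective) = (univMat DQ σ).map res from rfl,
      ← AddMonoidHom.map_trace res, h1.2, map_ofNat]

/-- Unipotent deformations have unipotent tangent cocycles. -/
theorem resPlace_mem_Lunip (hV : ∀ σ, (V : Mat2 (ResidueField 𝒪)) * barMat DQ σ = rb σ * V)
    (hp : p.Prime) (hdet : DQ.ρ.DetIsCyclotomic p) (hunip : DQ.ρ.IsUnipotentOnInertiaAt q)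
    (hP : P.LiesOverPrime q) (d : derSpace DQ.residue_surjective) :
    resPlace P (conjMap V (tangentCocycle DQ d)) ∈ Lunip rb P := by
  refine ⟨resPlace_mem_Z1 DQ rb V hV hp hdet d, fun σ hσ => ?_⟩
  show (conjMap V (tangentCocycle DQ d) (σ : GQ) * rb σ).trace = 0
  rw [conjMap_mul_rb DQ rb V hV, Matrix.trace_mul_cycle, Units.inv_mul, one_mul,
    ← AddMonoidHom.map_trace (d : DQ.R →ₗ[𝒪] ResidueField 𝒪),
    (det_trace_rb_of_unipotent DQ rb V hV hunip hP hσ).1.2]
  exact (congrArg _ (Nat.cast_ofNat (R := DQ.R)).symm).trans (by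
    rw [← map_natCast (algebraMap 𝒪 DQ.R)]
    exact derSpace_apply_algebraMap _ d _)

end Deformation

end Fermat.Agent.TWLocal
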